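/-
TR / E-side of S44 (helper5): the S05 local theorem for multiplicative reduction, made
QUANTITATIVE, in residue characteristic `p`.

Curve `W : y² = x³ + a x² + b x` over a valued field `(K, v)` (multiplicative valuation),
`v a = 1`, `v b < 1`.  For `ρ < 1` put `E1^(ρ) := {O} ∪ {(x, y) : 1 ≤ ρ² · v x}` (`InDepth`).

* `sub_depth_of_same_red`, `sub_depth_of_rel_close` : two points whose coordinates are
  `ρ`-close (absolutely at a point with non-singular reduction, relatively at a point reducing to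
  the node) differ by an element of `E1^(ρ)`;
* `torsion_depth_bound` : a non-zero `p`-torsion point `T` of the kernel of reduction satisfies
  `v p · v (x T) ^ ((p-1)/2) ≤ 1` (Gauss bound for `preΨ_p = p ∏ (X - x)`): the `p`-torsion of
  the kernel of reduction is not deep;
* `eq_zero_of_inDepth` : hence `E1^(ρ)` has no non-zero `p`-torsion as soon as `ρ^(p-1) < v p`;
* `fixed_of_close` : **the local theorem.**  If `b = t ^ p` and `σ` moves every integral element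
  of an intermediate field `S` containing the coordinates of the `p`-torsion by at most `ρ`, with
  `ρ ^ (p-1) < v p`, then `σ` fixes every `p`-torsion point.
-/
import Fermat.Agent.S05.LocalMult
import Fermat.Agent.S13.LocP.Core
import Fermat.Agent.S13.LocP.SubE1

set_option autoImplicit false

namespace Fermat.Agent.TR.ESide

open WeierstrassCurve WeierstrassCurve.Affine Polynomial
open Fermat.Agent.S05 Fermat.Agent.S13.LocP

/-! ### Vieta-level statements -/

section Vieta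

variable {K : Type*} [Field K] {Γ₀ : Type*} [LinearOrderedCommGroupWithZero Γ₀]
  (v : Valuation K Γ₀)

/-- Quantitative `vieta_same_red`: if `(x₁,y₁)` is integral with nonsingular reduction and
`(x₂,-y₂)` is `ρ`-close to it, then the sum `(x₃,y₃)` has `1 ≤ ρ² · v x₃`. -/
theorem vieta_same_red_depth {a b x₁ y₁ x₂ y₂ x₃ y₃ l n : K} {ρ : Γ₀} (hρ : ρ < 1)
    (ha : v a ≤ 1)
    (hV : Vieta a b x₁ y₁ x₂ y₂ x₃ y₃ l n)
    (hx₁ : v x₁ ≤ 1) (hx : v (x₁ - x₂) ≤ ρ) (hy : v (y₁ + y₂) ≤ ρ)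
    (hns : v (2 * y₁) = 1 ∨ v (3 * x₁ ^ 2 + 2 * a * x₁ + b) = 1) : 1 ≤ ρ ^ 2 * v x₃ := by
  have h2 : v (2 : K) ≤ 1 := SameRed.val_two_le v
  have hx' : v (x₁ - x₂) < 1 := lt_of_le_of_lt hx hρ
  have hy' : v (y₁ + y₂) < 1 := lt_of_le_of_lt hy hρ
  have hx₂ : v x₂ ≤ 1 := by
    have h : x₂ = x₁ - (x₁ - x₂) := by ring
    rw [h]
    exact v.map_sub_le hx₁ hx'.le
  have hl : 1 ≤ ρ * v l := by
    rcases hns with hns | hns
    · have e : l * (x₁ - x₂) = 2 * y₁ - (y₁ + y₂) := by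
        rw [hV.l_mul_sub]; ring
      have hv : v (2 * y₁ - (y₁ + y₂)) = 1 := by
        rw [← hns]
        exact v.map_sub_eq_of_lt_left (by rw [hns]; exact hy')
      rw [← e, map_mul] at hv
      calc (1 : Γ₀) = v l * v (x₁ - x₂) := hv.symm
        _ ≤ v l * ρ := mul_le_mul' le_rfl hx
        _ = ρ * v l := mul_comm _ _
    · have e : l * (y₁ + y₂) =
          (3 * x₁ ^ 2 + 2 * a * x₁ + b) - (x₁ - x₂) * (x₂ + 2 * x₁ + a) := by
        rw [hV.l_mul_add]; ring
      have hsmall : v ((x₁ - x₂) * (x₂ + 2 * x₁ + a)) < 1 := by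
        rw [map_mul]
        have h3 : v (x₂ + 2 * x₁ + a) ≤ 1 := by
          refine v.map_add_le (v.map_add_le hx₂ ?_) ha
          rw [map_mul]
          exact mul_le_one' h2 hx₁
        calc v (x₁ - x₂) * v (x₂ + 2 * x₁ + a) ≤ v (x₁ - x₂) * 1 := mul_le_mul' le_rfl h3
          _ = v (x₁ - x₂) := mul_one _
          _ < 1 := hx'
      have hv : v ((3 * x₁ ^ 2 + 2 * a * x₁ + b) - (x₁ - x₂) * (x₂ + 2 * x₁ + a)) = 1 := by
        rw [← hns]
        exact v.map_sub_eq_of_lt_left (by rw [hns]; exact hsmall)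
      rw [← e, map_mul] at hv
      calc (1 : Γ₀) = v l * v (y₁ + y₂) := hv.symm
        _ ≤ v l * ρ := mul_le_mul' le_rfl hy
        _ = ρ * v l := mul_comm _ _
  have hl1 : 1 < v l := by
    by_contra hcon
    have h3 : ρ * v l ≤ ρ * 1 := mul_le_mul' le_rfl (not_lt.mp hcon)
    rw [mul_one] at h3
    exact absurd (lt_of_le_of_lt (hl.trans h3) hρ) (lt_irrefl _)
  have hl2 : 1 < v (l ^ 2) := by
    rw [map_pow]
    exact one_lt_pow' hl1 (by norm_num)
  have e : x₃ = l ^ 2 - (a + x₁ + x₂) := by linear_combination hV.e₁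
  have hsm : v (a + x₁ + x₂) ≤ 1 := v.map_add_le (v.map_add_le ha hx₁) hx₂
  have hx₃ : v x₃ = v l ^ 2 := by
    rw [e, v.map_sub_eq_of_lt_left (lt_of_le_of_lt hsm hl2), map_pow]
  rw [hx₃, ← mul_pow]
  exact one_le_pow₀ hl

/-- Quantitative `vieta_rigid_S`: if `(x₂, -y₂)` is relatively `ρ`-close to `(x₁, y₁)` (a point
with `v b < v x₁ < 1`), then the sum `(x₃,y₃)` has `1 ≤ ρ² · v x₃`. -/
theorem vieta_rigid_S_depth {a b x₁ y₁ x₂ y₂ x₃ y₃ l n : K} {ρ : Γ₀} (hρ : ρ < 1)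
    (ha : v a = 1) (h2 : v 2 = 1)
    (hV : Vieta a b x₁ y₁ x₂ y₂ x₃ y₃ l n) (h₁ : LegEq a b x₁ y₁)
    (hx₁ : v x₁ < 1) (hx₁' : v b < v x₁)
    (hx : v (x₁ - x₂) ≤ ρ * v x₁) (hy : v (y₁ + y₂) ≤ ρ * v y₁) : 1 ≤ ρ ^ 2 * v x₃ := by
  have hx₁pos : 0 < v x₁ := lt_of_le_of_lt zero_le hx₁'
  have hy₁ : v y₁ = v x₁ := LocalMult.val_y_eq_val_x v ha hx₁' hx₁ h₁
  have hρx : ρ * v x₁ < v x₁ := by
    calc ρ * v x₁ < 1 * v x₁ := mul_lt_mul_of_pos_right hρ hx₁pos
      _ = v x₁ := one_mul _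
  have hxlt : v (x₁ - x₂) < v x₁ := lt_of_le_of_lt hx hρx
  have hylt : v (y₁ + y₂) < v x₁ := by
    rw [hy₁] at hy
    exact lt_of_le_of_lt hy hρx
  have hrhs : y₁ * x₂ - y₂ * x₁ = x₁ * (2 * y₁) + (y₁ * (x₂ - x₁) - x₁ * (y₁ + y₂)) := by ring
  have hmain : v (x₁ * (2 * y₁)) = v x₁ ^ 2 := by
    rw [map_mul, map_mul, h2, one_mul, hy₁, pow_two]
  have hsmall1 : v (y₁ * (x₂ - x₁)) < v x₁ ^ 2 := by
    rw [map_mul, hy₁, Valuation.map_sub_swap, pow_two]
    exact mul_lt_mul_of_pos_left hxlt hx₁pos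
  have hsmall2 : v (x₁ * (y₁ + y₂)) < v x₁ ^ 2 := by
    rw [map_mul, pow_two]
    exact mul_lt_mul_of_pos_left hylt hx₁pos
  have hsmall : v (y₁ * (x₂ - x₁) - x₁ * (y₁ + y₂)) < v (x₁ * (2 * y₁)) := by
    rw [hmain]
    exact lt_of_le_of_lt (Valuation.map_sub v _ _) (max_lt hsmall1 hsmall2)
  have hn : v n * v (x₂ - x₁) = v x₁ ^ 2 := by
    rw [← map_mul, hV.n_mul_sub, hrhs, Valuation.map_add_eq_of_lt_left v hsmall, hmain]
  have hx₂ : v x₂ = v x₁ := by
    have : x₂ = x₁ - (x₁ - x₂) := by ring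
    rw [this]
    exact Valuation.map_sub_eq_of_lt_left v hxlt
  -- `v x₁ ≤ ρ * v n`
  have hnρ : v x₁ ≤ ρ * v n := by
    by_contra hcon
    rw [not_le] at hcon
    have h3 : v n * v (x₂ - x₁) < v x₁ ^ 2 := by
      rw [Valuation.map_sub_swap, pow_two]
      calc v n * v (x₁ - x₂) ≤ v n * (ρ * v x₁) := mul_le_mul' le_rfl hx
        _ = (ρ * v n) * v x₁ := by rw [mul_left_comm, mul_assoc]
        _ < v x₁ * v x₁ := mul_lt_mul_of_pos_right hcon hx₁pos
    exact absurd hn h3.ne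
  have he₃ : v x₁ ^ 2 * v x₃ = v n ^ 2 := by
    have hn2 : v (n ^ 2) = v n ^ 2 := map_pow v n 2
    rw [← hn2, ← hV.e₃, map_mul, map_mul, hx₂, pow_two]
  by_contra hcon
  rw [not_le] at hcon
  have h4 : v x₁ ^ 2 * (ρ ^ 2 * v x₃) < v x₁ ^ 2 * 1 :=
    mul_lt_mul_of_pos_left hcon (pow_pos hx₁pos 2)
  have h5 : v x₁ ^ 2 * (ρ ^ 2 * v x₃) = (ρ * v n) ^ 2 := by
    rw [mul_left_comm, he₃, mul_pow]
  rw [h5, mul_one] at h4
  exact absurd (pow_le_pow_left₀ zero_le hnρ 2) (not_le.mpr h4)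

end Vieta

/-! ### Point-level statements -/

section Points

variable {K : Type*} [Field K] {Γ₀ : Type*} [LinearOrderedCommGroupWithZero Γ₀]
  (v : Valuation K Γ₀) {W : Affine K}

/-- The points of depth `ρ` in the kernel of reduction: the origin and the affine points with
`1 ≤ ρ² · v x`. -/
def InDepth (ρ : Γ₀) : W.Point → Prop
  | .zero => True
  | .some x _ _ => 1 ≤ ρ ^ 2 * v x

/-- The `x`-coordinate of a point (`0` at the origin). -/
def xOf : W.Point → K
  | .zero => 0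
  | .some x _ _ => x

theorem some_congr {x y x' y' : K} (h : W.Nonsingular x y) (h' : W.Nonsingular x' y')
    (hx : x = x') (hy : y = y') : Point.some x y h = Point.some x' y' h' := by
  subst hx hy
  rfl

variable [DecidableEq K]

/-- Two integral points with `ρ`-close coordinates and nonsingular reduction differ by a point of
depth `ρ`. -/
theorem sub_depth_of_same_red (hW : IsLeg W) {ρ : Γ₀} (hρ : ρ < 1) (ha : v W.a₂ ≤ 1)
    {x₁ y₁ x₂ y₂ : K} (h₁ : W.Nonsingular x₁ y₁) (h₂ : W.Nonsingular x₂ y₂)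
    (hx₁ : v x₁ ≤ 1) (hx : v (x₁ - x₂) ≤ ρ) (hy : v (y₁ - y₂) ≤ ρ)
    (hns : v (2 * y₁) = 1 ∨ v (3 * x₁ ^ 2 + 2 * W.a₂ * x₁ + W.a₄) = 1) :
    InDepth v ρ (Point.some x₁ y₁ h₁ - Point.some x₂ y₂ h₂) := by
  rw [sub_eq_add_neg, hW.neg_some h₂]
  by_cases hne : x₁ = x₂ ∧ y₁ = -(-y₂)
  · obtain ⟨rfl, hyy⟩ := hne
    rw [neg_neg] at hyy
    subst hyy
    rw [hW.add_neg_eq_zero]
    trivial
  · obtain ⟨l, n, x₃, y₃, h₃, hadd, hV⟩ := hW.add_vieta h₁ (hW.nonsingular_neg h₂) hne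
    rw [hadd]
    show 1 ≤ ρ ^ 2 * v x₃
    exact vieta_same_red_depth v hρ ha hV hx₁ hx (by rwa [← sub_eq_add_neg]) hns

/-- Two relatively `ρ`-close points of type `S` differ by a point of depth `ρ`. -/
theorem sub_depth_of_rel_close (hW : IsLeg W) {ρ : Γ₀} (hρ : ρ < 1) (ha : v W.a₂ = 1)
    (h2 : v 2 = 1)
    {x₁ y₁ x₂ y₂ : K} (h₁ : W.Nonsingular x₁ y₁) (h₂ : W.Nonsingular x₂ y₂)
    (hx₁ : v x₁ < 1) (hx₁' : v W.a₄ < v x₁)
    (hx : v (x₁ - x₂) ≤ ρ * v x₁) (hy : v (y₁ - y₂) ≤ ρ * v y₁) :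
    InDepth v ρ (Point.some x₁ y₁ h₁ - Point.some x₂ y₂ h₂) := by
  rw [sub_eq_add_neg, hW.neg_some h₂]
  by_cases hne : x₁ = x₂ ∧ y₁ = y₂
  · obtain ⟨rfl, rfl⟩ := hne
    rw [hW.add_neg_eq_zero h₁ (hW.nonsingular_neg h₂)]
    trivial
  · have hne' : ¬(x₁ = x₂ ∧ y₁ = -(-y₂)) := by rwa [neg_neg]
    obtain ⟨l, n, x₃, y₃, h₃, hadd, hV⟩ := hW.add_vieta h₁ (hW.nonsingular_neg h₂) hne'
    rw [hadd]
    have hL₁ : LegEq W.a₂ W.a₄ x₁ y₁ := (hW.equation_iff x₁ y₁).mp h₁.1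
    have hy' : v (y₁ + -y₂) ≤ ρ * v y₁ := by rwa [← sub_eq_add_neg]
    exact vieta_rigid_S_depth v hρ ha h2 hV hL₁ hx₁ hx₁' hx hy'

end Points

/-! ### The `p`-torsion of the kernel of reduction is not deep -/

section Torsion

variable {K : Type*} [Field K]

/-- The unit factor in `x⁻¹ = z² (1 + a x⁻¹ + b x⁻²)`. -/
theorem val_unit_factor (A : ValuationSubring K) {a b x : K} (ha : a ∈ A) (hb : b ∈ A)
    (hx : x ∉ A) : A.valuation (1 + a * x⁻¹ + b * x⁻¹ ^ 2) = 1 := by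
  have hxv : 1 < A.valuation x := by
    rw [← not_le, A.valuation_le_one_iff]; exact hx
  have hs : A.valuation x⁻¹ < 1 := by
    rw [map_inv₀]; exact inv_lt_one_of_one_lt₀ hxv
  have ht : A.valuation (a * x⁻¹ + b * x⁻¹ ^ 2) < 1 := by
    refine A.valuation.map_add_lt (E1.val_mul_lt_one_of_mem A ha hs) ?_
    refine E1.val_mul_lt_one_of_mem A hb ?_
    rw [map_pow]
    exact pow_lt_one₀ zero_le hs (by norm_num)
  rw [add_assoc]; exact E1.val_one_add_small A ht

variable {W : Affine K} [DecidableEq K]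

/-- In the kernel of reduction, the `x`-coordinate of a multiple is at least as large as the
`x`-coordinate of the point. -/
theorem val_x_le_val_x_nsmul (A : ValuationSubring K) (h₁ : W.a₁ = 0) (h₃ : W.a₃ = 0)
    (h₆ : W.a₆ = 0) (h₂ : W.a₂ ∈ A) (h₄ : W.a₄ ∈ A) {x y : K} (h : W.Nonsingular x y)
    (hx : x ∉ A) (k : ℕ) {x' y' : K} (h' : W.Nonsingular x' y')
    (hk : k • Point.some x y h = Point.some x' y' h') :
    A.valuation x ≤ A.valuation x' := by
  obtain ⟨hin, c, hc, hz⟩ := E1.ker_nsmul A h₁ h₃ h₆ h₂ h₄ (P := Point.some x y h) hx k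
  rw [hk] at hin hz
  have hx' : x' ∉ A := hin
  rw [E1.zCoord_some, E1.zCoord_some] at hz
  obtain ⟨hx0, -, -, hzv, hid⟩ :=
    E1.ker_basic A h₂ h₄ (E1.equation_of_special h₁ h₃ h₆ h) hx
  obtain ⟨hx0', -, -, -, hid'⟩ :=
    E1.ker_basic A h₂ h₄ (E1.equation_of_special h₁ h₃ h₆ h') hx'
  have e1 : A.valuation x⁻¹ = A.valuation (x / y) ^ 2 := by
    have := congrArg A.valuation hid
    rwa [map_mul, val_unit_factor A h₂ h₄ hx, mul_one, map_pow] at this
  have e2 : A.valuation x'⁻¹ = A.valuation (x' / y') ^ 2 := by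
    have := congrArg A.valuation hid'
    rwa [map_mul, val_unit_factor A h₂ h₄ hx', mul_one, map_pow] at this
  -- `v z' ≤ v z`
  have hzle : A.valuation (x' / y') ≤ A.valuation (x / y) := by
    rw [hz]
    refine A.valuation.map_add_le ?_ ?_
    · rw [map_mul]
      calc A.valuation (k : K) * A.valuation (x / y) ≤ 1 * A.valuation (x / y) :=
            mul_le_mul' ((A.valuation_le_one_iff _).mpr (natCast_mem A k)) le_rfl
        _ = A.valuation (x / y) := one_mul _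
    · rw [map_mul, map_pow, pow_two, mul_assoc]
      calc A.valuation (x / y) * (A.valuation (x / y) * A.valuation c)
            ≤ A.valuation (x / y) * (1 * 1) :=
            mul_le_mul' le_rfl (mul_le_mul' hzv.le ((A.valuation_le_one_iff _).mpr hc))
        _ = A.valuation (x / y) := by rw [mul_one, mul_one]
  have h3 : A.valuation x'⁻¹ ≤ A.valuation x⁻¹ := by
    rw [e1, e2]
    exact pow_le_pow_left₀ zero_le hzle 2
  rw [map_inv₀, map_inv₀] at h3
  have hvx : 0 < A.valuation x := zero_lt_iff.mpr ((Valuation.ne_zero_iff _).mpr hx0)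
  have hvx' : 0 < A.valuation x' := zero_lt_iff.mpr ((Valuation.ne_zero_iff _).mpr hx0')
  exact (inv_le_inv₀ hvx' hvx).mp h3

variable {Γ₀ : Type*} [LinearOrderedCommGroupWithZero Γ₀] (v : Valuation K Γ₀)

/-- **The `p`-torsion of the kernel of reduction is not deep.**  For a non-zero `p`-torsion point
`T = (x, y)` of the kernel of reduction, `v p · v x ^ ((p-1)/2) ≤ 1`.  (The `(p-1)/2` multiples
`k T`, `1 ≤ k ≤ (p-1)/2`, have distinct `x`-coordinates of valuation `≥ v x`, and these are roots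
of `preΨ_p = p ∏ (X - x)`, whose coefficients are integral.) -/
theorem torsion_depth_bound (hW : IsLeg W) (ha : v W.a₂ ≤ 1) (hb : v W.a₄ ≤ 1)
    {p : ℕ} (hp : p.Prime) (hp2 : p ≠ 2)
    (s : Finset K) (hs : ∀ x, x ∈ s ↔ ∃ y h, (p : ℤ) • Point.some (W' := W) x y h = 0)
    (hpre : W.preΨ (p : ℤ) = C (p : K) * ∏ x ∈ s, (X - C x))
    (hint : ∀ n, v ((W.preΨ (p : ℤ)).coeff n) ≤ 1)
    {x y : K} (h : W.Nonsingular x y) (hT : (p : ℤ) • Point.some x y h = 0) (hx : 1 < v x) :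
    v (p : K) * v x ^ ((p - 1) / 2) ≤ 1 := by
  classical
  obtain ⟨T, hTdef⟩ : ∃ T : W.Point, T = Point.some x y h := ⟨_, rfl⟩
  rw [← hTdef] at hT
  have hequiv := Valuation.isEquiv_valuation_valuationSubring v
  have hT0 : T ≠ 0 := by rw [hTdef]; exact Point.some_ne_zero h
  have hTp : p • T = 0 := by rw [← natCast_zsmul]; exact hT
  have hodd : Odd p := hp.eq_two_or_odd'.resolve_left hp2
  obtain ⟨j, hj⟩ := hodd
  -- the order of `T` is `p`
  have hord : ∀ k : ℕ, k • T = 0 → p ∣ k := by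
    intro k hk
    have h1 : addOrderOf T ∣ p := addOrderOf_dvd_of_nsmul_eq_zero hTp
    have h2 : addOrderOf T = p := by
      rcases (Nat.dvd_prime hp).mp h1 with h3 | h3
      · exact absurd (AddMonoid.addOrderOf_eq_one_iff.mp h3) hT0
      · exact h3
    rw [← h2]
    exact addOrderOf_dvd_of_nsmul_eq_zero hk
  have hk0 : ∀ k ∈ Finset.Icc 1 ((p - 1) / 2), k • T ≠ 0 := by
    intro k hk h0
    rw [Finset.mem_Icc] at hk
    have := Nat.le_of_dvd (by omega) (hord k h0)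
    omega
  have hxA : x ∉ v.valuationSubring := by
    rw [Valuation.mem_valuationSubring_iff, not_le]; exact hx
  have haA : W.a₂ ∈ v.valuationSubring := (Valuation.mem_valuationSubring_iff v _).mpr ha
  have hbA : W.a₄ ∈ v.valuationSubring := (Valuation.mem_valuationSubring_iff v _).mpr hb
  have hprop : ∀ k ∈ Finset.Icc 1 ((p - 1) / 2), xOf (k • T) ∈ s ∧ v x ≤ v (xOf (k • T)) := by
    intro k hk
    rcases hkT : k • T with _ | ⟨x', y', h'⟩
    · exact absurd hkT (hk0 k hk)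
    · have hmem : x' ∈ s := by
        refine (hs x').mpr ⟨y', h', ?_⟩
        rw [← hkT, smul_comm, hT, smul_zero]
      have hkT' : k • Point.some x y h = Point.some x' y' h' := by rw [← hTdef]; exact hkT
      have hle := val_x_le_val_x_nsmul v.valuationSubring hW.a₁ hW.a₃ hW.a₆ haA hbA h hxA k h' hkT'
      exact ⟨hmem, (hequiv x x').mpr hle⟩
  have hinj : Set.InjOn (fun k : ℕ => xOf (k • T)) (Finset.Icc 1 ((p - 1) / 2) : Finset ℕ) := by
    intro k hk k' hk' hkk'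
    have hkm := Finset.mem_Icc.mp (Finset.mem_coe.mp hk)
    have hkm' := Finset.mem_Icc.mp (Finset.mem_coe.mp hk')
    rcases hkT : k • T with _ | ⟨x₁, y₁, h₁⟩
    · exact absurd hkT (hk0 k hk)
    rcases hkT' : k' • T with _ | ⟨x₂, y₂, h₂⟩
    · exact absurd hkT' (hk0 k' hk')
    have hxx : x₁ = x₂ := by
      have := hkk'
      simp only [hkT, hkT'] at this
      exact this
    subst hxx
    rcases eq_or_eq_neg_of_x_eq hW h₁ h₂ with he | he
    · -- `k • T = k' • T`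
      have heq : k • T = k' • T := by rw [hkT, hkT', he]
      rcases Nat.le_total k k' with hle | hle
      · have h0 : (k' - k) • T = 0 := by
          have h3 : (k' - k) • T + k • T = 0 + k • T := by
            rw [← add_nsmul, Nat.sub_add_cancel hle, zero_add, heq]
          exact add_right_cancel h3
        have h4 := hord _ h0
        have h5 : k' - k = 0 := Nat.eq_zero_of_dvd_of_lt h4 (by omega)
        omega
      · have h0 : (k - k') • T = 0 := by
          have h3 : (k - k') • T + k' • T = 0 + k' • T := by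
            rw [← add_nsmul, Nat.sub_add_cancel hle, zero_add, heq]
          exact add_right_cancel h3
        have h4 := hord _ h0
        have h5 : k - k' = 0 := Nat.eq_zero_of_dvd_of_lt h4 (by omega)
        omega
    · -- `k • T = -(k' • T)`
      exfalso
      have h0 : (k + k') • T = 0 := by
        rw [add_nsmul, hkT, hkT', he, neg_add_cancel]
      have h4 := Nat.le_of_dvd (by omega) (hord _ h0)
      omega
  set t : Finset K := (Finset.Icc 1 ((p - 1) / 2)).image (fun k : ℕ => xOf (k • T)) with ht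
  have hcard : t.card = (p - 1) / 2 := by
    rw [ht, Finset.card_image_of_injOn hinj, Nat.card_Icc]
    omega
  have hts : t ⊆ s := by
    intro x' hx'
    obtain ⟨k, hk, rfl⟩ := Finset.mem_image.mp hx'
    exact (hprop k hk).1
  have hxt : ∀ x' ∈ t, v x ≤ v x' := by
    intro x' hx'
    obtain ⟨k, hk, rfl⟩ := Finset.mem_image.mp hx'
    exact (hprop k hk).2
  have ht1 : ∀ x' ∈ t, 1 < v x' := fun x' hx' => lt_of_lt_of_le hx (hxt x' hx')
  rw [hpre] at hint
  have hg := gauss_bound_subset v (p : K) s t hts ht1 hint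
  have hpow : v x ^ t.card ≤ ∏ x' ∈ t, v x' := Finset.pow_card_le_prod t (fun x' => v x') _ hxt
  rw [hcard] at hpow
  calc v (p : K) * v x ^ ((p - 1) / 2) ≤ v (p : K) * ∏ x' ∈ t, v x' := mul_le_mul' le_rfl hpow
    _ ≤ 1 := hg

omit [DecidableEq K] in
theorem val_natCast_le_one (n : ℕ) : v (n : K) ≤ 1 := by
  induction n with
  | zero => simp
  | succ n ih =>
    rw [Nat.cast_succ]
    exact v.map_add_le ih (le_of_eq v.map_one)

/-- A `p`-torsion point of depth `ρ` vanishes as soon as `ρ ^ (p-1) < v p`. -/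
theorem eq_zero_of_inDepth (hW : IsLeg W) (ha : v W.a₂ ≤ 1) (hb : v W.a₄ ≤ 1)
    {p : ℕ} (hp : p.Prime) (hp2 : p ≠ 2)
    (s : Finset K) (hs : ∀ x, x ∈ s ↔ ∃ y h, (p : ℤ) • Point.some (W' := W) x y h = 0)
    (hpre : W.preΨ (p : ℤ) = C (p : K) * ∏ x ∈ s, (X - C x))
    (hint : ∀ n, v ((W.preΨ (p : ℤ)).coeff n) ≤ 1)
    {ρ : Γ₀} (hρ : ρ ^ (p - 1) < v (p : K)) {D : W.Point} (hD : (p : ℤ) • D = 0)
    (hdep : InDepth v ρ D) : D = 0 := by
  rcases D with _ | ⟨x, y, h⟩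
  · rfl
  · exfalso
    have h1 : 1 ≤ ρ ^ 2 * v x := hdep
    have hodd : Odd p := hp.eq_two_or_odd'.resolve_left hp2
    obtain ⟨j, hj⟩ := hodd
    have hρ1 : ρ < 1 := by
      by_contra hcon
      have h3 : (1 : Γ₀) ≤ ρ ^ (p - 1) := one_le_pow₀ (not_lt.mp hcon)
      exact absurd (lt_of_le_of_lt h3 hρ) (not_lt.mpr (val_natCast_le_one v p))
    have hx : 1 < v x := by
      by_contra hcon
      have h3 : ρ ^ 2 * v x ≤ ρ ^ 2 * 1 := mul_le_mul' le_rfl (not_lt.mp hcon)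
      rw [mul_one] at h3
      have h4 : ρ ^ 2 < 1 := pow_lt_one₀ zero_le hρ1 two_ne_zero
      exact absurd (lt_of_le_of_lt (h1.trans h3) h4) (lt_irrefl _)
    have hbd := torsion_depth_bound v hW ha hb hp hp2 s hs hpre hint h hD hx
    have h2 : 1 ≤ (ρ ^ 2 * v x) ^ ((p - 1) / 2) := one_le_pow₀ h1
    have hexp : 2 * ((p - 1) / 2) = p - 1 := by omega
    rw [mul_pow, ← pow_mul, hexp] at h2
    have h3 : v (p : K) ≤ ρ ^ (p - 1) := by
      calc v (p : K) = v (p : K) * 1 := (mul_one _).symm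
        _ ≤ v (p : K) * (ρ ^ (p - 1) * v x ^ ((p - 1) / 2)) := mul_le_mul' le_rfl h2
        _ = ρ ^ (p - 1) * (v (p : K) * v x ^ ((p - 1) / 2)) := mul_left_comm _ _ _
        _ ≤ ρ ^ (p - 1) * 1 := mul_le_mul' le_rfl hbd
        _ = ρ ^ (p - 1) := mul_one _
    exact absurd hρ (not_lt.mpr h3)

end Torsion

/-! ### The local theorem -/

section Local

variable {F K : Type*} [Field F] [Field K] [Algebra F K] {Γ₀ : Type*}
  [LinearOrderedCommGroupWithZero Γ₀] (v : Valuation K Γ₀)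

/-- Quantitative `galois_close`: an element of `S` whose valuation is that of a power of a
`σ`-fixed element of `S` is moved by `σ` by something relatively `ρ`-small. -/
theorem close_of_val_eq_zpow (σ : K ≃ₐ[F] K) (S : IntermediateField F K) {ρ : Γ₀}
    (hσ : ∀ c ∈ S, v c ≤ 1 → v (σ c - c) ≤ ρ) {τ : K} (hτ : τ ≠ 0) (hτS : τ ∈ S)
    (hστ : σ τ = τ) (m : ℤ) {z : K} (hzS : z ∈ S) (hz : v z = v τ ^ m) :
    v (z - σ z) ≤ ρ * v z := by
  have hvτ : v τ ≠ 0 := (Valuation.ne_zero_iff v).mpr hτ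
  have hτm : τ ^ m ≠ 0 := zpow_ne_zero m hτ
  have hvτm : v (τ ^ m) = v τ ^ m := map_zpow₀ v τ m
  obtain ⟨w, hw⟩ : ∃ w, w = z / τ ^ m := ⟨_, rfl⟩
  have hwS : w ∈ S := by
    rw [hw]
    exact S.div_mem hzS (zpow_mem hτS m)
  have hvw : v w = 1 := by
    rw [hw, map_div₀, hvτm, hz, div_self (zpow_ne_zero m hvτ)]
  have hzw : z = w * τ ^ m := by rw [hw, div_mul_cancel₀ _ hτm]
  have hσz : σ z = σ w * τ ^ m := by
    have h : σ (w * τ ^ m) = σ w * τ ^ m := by rw [map_mul, map_zpow₀, hστ]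
    rw [← hzw] at h; exact h
  have hdiff : z - σ z = (w - σ w) * τ ^ m := by
    rw [hσz, sub_mul, ← hzw]
  have h1 : v (w - σ w) ≤ ρ := by
    rw [Valuation.map_sub_swap]; exact hσ w hwS hvw.le
  rw [hdiff, map_mul, hvτm, hz]
  exact mul_le_mul' h1 le_rfl

variable [DecidableEq K]

/-- `P - σ P` has depth `ρ`, for every `p`-torsion point `P` of a curve with multiplicative
reduction `y² = x³ + a x² + b x`, `b = t ^ p`, when `σ` moves the integral elements of an
intermediate field `S` containing the coordinates of `P` by at most `ρ < 1`.  (`x₀` is the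
`x`-coordinate of a rational point of order two with non-singular reduction; it is used for the
points `P` of the kernel of reduction.) -/
theorem sub_depth_of_mult (W₀ : Affine F) (hW : IsLeg W₀) (σ : K ≃ₐ[F] K)
    (S : IntermediateField F K) {ρ : Γ₀} (hρ : ρ < 1)
    (hσ : ∀ c ∈ S, v c ≤ 1 → v (σ c - c) ≤ ρ)
    (h2 : v 2 = 1) (ha : v (algebraMap F K W₀.a₂) = 1)
    (hb : v (algebraMap F K W₀.a₄) < 1) (hb0 : W₀.a₄ ≠ 0)
    {p : ℕ} (hp : p.Prime) (hp2 : p ≠ 2)
    {t : F} (ht : W₀.a₄ = t ^ p) {β : K} (hβ : β ^ 2 = algebraMap F K W₀.a₂)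
    {x₀ : F} (hx₀ : x₀ ^ 2 + W₀.a₂ * x₀ + W₀.a₄ = 0) (hx₀v : v (algebraMap F K x₀) = 1)
    {x y : K} (h : (W₀⁄K).Nonsingular x y) (hxS : x ∈ S) (hyS : y ∈ S)
    (hP : p • Point.some x y h = 0) :
    InDepth v ρ (Point.some x y h - Point.map (W' := W₀) σ.toAlgHom (Point.some x y h)) := by
  have hWK : IsLeg (W₀⁄K) := LocalMult.isLeg_baseChange W₀ hW
  have ha' : v (W₀⁄K).a₂ = 1 := ha
  have hb' : v (W₀⁄K).a₄ < 1 := hb
  have hb0' : (W₀⁄K).a₄ ≠ 0 := by
    show algebraMap F K W₀.a₄ ≠ 0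
    exact (_root_.map_ne_zero _).mpr hb0
  have hβ' : β ^ 2 = (W₀⁄K).a₂ := hβ
  have hE : LegEq (W₀⁄K).a₂ (W₀⁄K).a₄ x y := ((hWK.nonsingular_iff x y).mp h).1
  have h' : (W₀⁄K).Nonsingular (σ x) (σ y) :=
    (W₀.baseChange_nonsingular σ.toAlgHom.injective ..).mpr h
  rcases lt_trichotomy (v x) 1 with hx | hx | hx
  · -- `v x < 1`: the point reduces to the node
    show InDepth v ρ (Point.some x y h - Point.some (σ x) (σ y) h')
    have htK : (W₀⁄K).a₄ = (algebraMap F K t) ^ p := by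
      show algebraMap F K W₀.a₄ = _
      rw [ht, map_pow]
    obtain ⟨hbx, m, hm⟩ :=
      torsion_val v hWK ha' h2 hb' hb0' hβ' hp hp2 htK h hP hx
    have hτ : algebraMap F K t ≠ 0 := by
      intro h0
      apply hb0'
      rw [htK, h0, zero_pow hp.ne_zero]
    have hτS : algebraMap F K t ∈ S := S.algebraMap_mem t
    have hστ : σ (algebraMap F K t) = algebraMap F K t := σ.commutes t
    have hyx : v y = v x := LocalMult.val_y_eq_val_x v ha' hbx hx hE
    have hx' : v (x - σ x) ≤ ρ * v x := close_of_val_eq_zpow v σ S hσ hτ hτS hστ m hxS hm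
    have hy' : v (y - σ y) ≤ ρ * v y :=
      close_of_val_eq_zpow v σ S hσ hτ hτS hστ m hyS (hyx.trans hm)
    exact sub_depth_of_rel_close v hWK hρ ha' h2 h h' hx hbx hx' hy'
  · -- `v x = 1`: integral point with non-singular reduction
    show InDepth v ρ (Point.some x y h - Point.some (σ x) (σ y) h')
    have hy : v y ≤ 1 := LocalMult.val_y_le_one v ha'.le hb'.le hx.le hE
    have hns := LocalMult.nonsing_red v h2 ha' hb' hx hE
    refine sub_depth_of_same_red v hWK hρ ha'.le h h' hx.le ?_ ?_ hns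
    · rw [Valuation.map_sub_swap]; exact hσ x hxS hx.le
    · rw [Valuation.map_sub_swap]; exact hσ y hyS hy
  · -- `1 < v x`: translate by the rational point `R₀ = (x₀, 0)` of order two
    obtain ⟨ξ, hξ⟩ : ∃ ξ : K, ξ = algebraMap F K x₀ := ⟨_, rfl⟩
    obtain ⟨a, haK⟩ : ∃ a : K, a = (W₀⁄K).a₂ := ⟨_, rfl⟩
    obtain ⟨b, hbK⟩ : ∃ b : K, b = (W₀⁄K).a₄ := ⟨_, rfl⟩
    have hξv : v ξ = 1 := by rw [hξ]; exact hx₀v
    have hξS : ξ ∈ S := by rw [hξ]; exact S.algebraMap_mem x₀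
    have haS : a ∈ S := by rw [haK]; exact S.algebraMap_mem W₀.a₂
    have hξ0 : ξ ≠ 0 := by
      intro h0
      rw [h0, map_zero] at hξv
      exact zero_ne_one hξv
    have hav : v a = 1 := by rw [haK]; exact ha'
    have hbv : v b < 1 := by rw [hbK]; exact hb'
    have hroot : ξ ^ 2 + a * ξ + b = 0 := by
      have := congrArg (algebraMap F K) hx₀
      rw [map_add, map_add, map_mul, map_pow, map_zero] at this
      rw [hξ, haK, hbK]
      exact this
    -- the derivative at `R₀` is a unit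
    have hder : v (3 * ξ ^ 2 + 2 * a * ξ + b) = 1 := by
      have e1 : 3 * ξ ^ 2 + 2 * a * ξ + b = ξ * (2 * ξ + a) := by linear_combination hroot
      have e2 : ξ * (2 * ξ + a) = ξ ^ 2 - b := by linear_combination hroot
      rw [e1, e2]
      have h3 : v (ξ ^ 2) = 1 := by rw [map_pow, hξv, one_pow]
      rw [← h3]
      exact Valuation.map_sub_eq_of_lt_left v (by rw [h3]; exact hbv)
    have hR₀ : (W₀⁄K).Nonsingular ξ 0 := by
      rw [hWK.nonsingular_iff]
      refine ⟨?_, Or.inl ?_⟩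
      · unfold LegEq
        rw [← haK, ← hbK]
        linear_combination -ξ * hroot
      · rw [← haK, ← hbK]
        intro h0
        rw [h0, map_zero] at hder
        exact zero_ne_one hder
    have hσR₀ : Point.map (W' := W₀) σ.toAlgHom (Point.some ξ 0 hR₀) = Point.some ξ 0 hR₀ := by
      have hR₀' : (W₀⁄K).Nonsingular (σ ξ) (σ 0) :=
        (W₀.baseChange_nonsingular σ.toAlgHom.injective ..).mpr hR₀
      show Point.some (σ ξ) (σ 0) hR₀' = Point.some ξ 0 hR₀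
      refine some_congr hR₀' hR₀ ?_ (map_zero σ)
      rw [hξ]
      exact σ.commutes x₀
    -- the sum `T + R₀`
    have hne : ¬(x = ξ ∧ y = -0) := by
      rintro ⟨hxξ, -⟩
      rw [hxξ, hξv] at hx
      exact lt_irrefl _ hx
    obtain ⟨l, n, x₃, y₃, h₃, hadd, hV⟩ := hWK.add_vieta h hR₀ hne
    rw [← haK, ← hbK] at hV
    have hkey : x₃ * (x - ξ) = ξ * (x + ξ + a) := by
      have h4 : ξ * (x₃ * (x - ξ) - ξ * (x + ξ + a)) = 0 := by
        linear_combination hV.e₃ - ξ ^ 2 * hV.e₁ - (n - l * ξ) * hV.line₂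
      have h5 := (mul_eq_zero.mp h4).resolve_left hξ0
      linear_combination h5
    have hxξ : v (x - ξ) = v x :=
      Valuation.map_sub_eq_of_lt_left v (by rw [hξv]; exact hx)
    have hxξa : v (x + ξ + a) = v x := by
      rw [add_assoc]
      refine Valuation.map_add_eq_of_lt_left v (lt_of_le_of_lt ?_ hx)
      exact v.map_add_le hξv.le hav.le
    have hx0 : v x ≠ 0 := ne_of_gt (lt_trans zero_lt_one hx)
    have hx₃ : v x₃ = 1 := by
      have h4 := congrArg v hkey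
      rw [map_mul, map_mul, hxξ, hxξa, hξv, one_mul] at h4
      exact mul_right_cancel₀ hx0 (h4.trans (one_mul _).symm)
    have hxξ0 : x - ξ ≠ 0 := by
      intro h0
      rw [h0, map_zero] at hxξ
      exact hx0 hxξ.symm
    have hx₃S : x₃ ∈ S := by
      have e : x₃ = ξ * (x + ξ + a) / (x - ξ) := by
        rw [eq_div_iff hxξ0]; exact hkey
      rw [e]
      exact S.div_mem (S.mul_mem hξS (S.add_mem (S.add_mem hxS hξS) haS)) (S.sub_mem hxS hξS)
    have hlS : l ∈ S := by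
      have e : l = y / (x - ξ) := by
        rw [eq_div_iff hxξ0]
        have := hV.l_mul_sub
        rw [sub_zero] at this
        exact this
      rw [e]
      exact S.div_mem hyS (S.sub_mem hxS hξS)
    have hy₃S : y₃ ∈ S := by
      have e : y₃ = -(l * (x₃ - ξ)) := by
        linear_combination -hV.line₃ + hV.line₂
      rw [e]
      exact S.neg_mem (S.mul_mem hlS (S.sub_mem hx₃S hξS))
    have hE₃ : LegEq (W₀⁄K).a₂ (W₀⁄K).a₄ x₃ y₃ := ((hWK.nonsingular_iff x₃ y₃).mp h₃).1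
    have hy₃ : v y₃ ≤ 1 := LocalMult.val_y_le_one v ha'.le hb'.le hx₃.le hE₃
    have hns₃ := LocalMult.nonsing_red v h2 ha' hb' hx₃ hE₃
    have h₃' : (W₀⁄K).Nonsingular (σ x₃) (σ y₃) :=
      (W₀.baseChange_nonsingular σ.toAlgHom.injective ..).mpr h₃
    have hmain : InDepth v ρ (Point.some x₃ y₃ h₃ - Point.some (σ x₃) (σ y₃) h₃') := by
      refine sub_depth_of_same_red v hWK hρ ha'.le h₃ h₃' hx₃.le ?_ ?_ hns₃
      · rw [Valuation.map_sub_swap]; exact hσ x₃ hx₃S hx₃.le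
      · rw [Valuation.map_sub_swap]; exact hσ y₃ hy₃S hy₃
    have hmap : Point.some (σ x₃) (σ y₃) h₃' =
        Point.map (W' := W₀) σ.toAlgHom (Point.some x y h) + Point.some ξ 0 hR₀ := by
      have e : Point.some (σ x₃) (σ y₃) h₃' =
          Point.map (W' := W₀) σ.toAlgHom (Point.some x₃ y₃ h₃) := rfl
      rw [e, ← hadd, map_add, hσR₀]
    rw [hmap, ← hadd, add_sub_add_right_eq_sub] at hmain
    exact hmain

/-- **The local theorem (E-side of S44).**  Curve `y² = x³ + a x² + b x` over `F ⊆ K`,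
`v a = 1`, `v b < 1`, `b = t ^ p` with `t ∈ F`, `p` an odd prime.  If `σ ∈ Aut(K/F)` moves every
integral element of an intermediate field `S` containing the coordinates of the `p`-torsion by at
most `ρ`, and `ρ ^ (p-1) < v p`, then `σ` fixes every `p`-torsion point. -/
theorem fixed_of_close (W₀ : Affine F) (hW : IsLeg W₀) (σ : K ≃ₐ[F] K)
    (S : IntermediateField F K) {ρ : Γ₀}
    (hσ : ∀ c ∈ S, v c ≤ 1 → v (σ c - c) ≤ ρ)
    (h2 : v 2 = 1) (ha : v (algebraMap F K W₀.a₂) = 1)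
    (hb : v (algebraMap F K W₀.a₄) < 1) (hb0 : W₀.a₄ ≠ 0)
    {p : ℕ} (hp : p.Prime) (hp2 : p ≠ 2) (hρ : ρ ^ (p - 1) < v (p : K))
    {t : F} (ht : W₀.a₄ = t ^ p) {β : K} (hβ : β ^ 2 = algebraMap F K W₀.a₂)
    {x₀ : F} (hx₀ : x₀ ^ 2 + W₀.a₂ * x₀ + W₀.a₄ = 0) (hx₀v : v (algebraMap F K x₀) = 1)
    (s : Finset K)
    (hs : ∀ x, x ∈ s ↔ ∃ y h, (p : ℤ) • Point.some (W' := (W₀⁄K)) x y h = 0)
    (hpre : (W₀⁄K).preΨ (p : ℤ) = C (p : K) * ∏ x ∈ s, (X - C x))
    (hint : ∀ n, v (((W₀⁄K).preΨ (p : ℤ)).coeff n) ≤ 1)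
    (hS : ∀ (x y : K) (h : (W₀⁄K).Nonsingular x y), p • Point.some x y h = 0 → x ∈ S ∧ y ∈ S)
    (P : (W₀⁄K).Point) (hP : p • P = 0) :
    Point.map (W' := W₀) σ.toAlgHom P = P := by
  have hWK : IsLeg (W₀⁄K) := LocalMult.isLeg_baseChange W₀ hW
  have ha' : v (W₀⁄K).a₂ = 1 := ha
  have hb' : v (W₀⁄K).a₄ < 1 := hb
  have hρ1 : ρ < 1 := by
    by_contra hcon
    have h3 : (1 : Γ₀) ≤ ρ ^ (p - 1) := one_le_pow₀ (not_lt.mp hcon)
    exact absurd (lt_of_le_of_lt h3 hρ) (not_lt.mpr (val_natCast_le_one v p))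
  have hσP : p • Point.map (W' := W₀) σ.toAlgHom P = 0 := by
    rw [← map_nsmul, hP, map_zero]
  suffices hdep : InDepth v ρ (P - Point.map (W' := W₀) σ.toAlgHom P) by
    have hD : (p : ℤ) • (P - Point.map (W' := W₀) σ.toAlgHom P) = 0 := by
      rw [natCast_zsmul, smul_sub, hP, hσP, sub_zero]
    have h0 := eq_zero_of_inDepth v hWK ha'.le hb'.le hp hp2 s hs hpre hint hρ hD hdep
    exact (sub_eq_zero.mp h0).symm
  rcases P with _ | ⟨x, y, h⟩
  · exact trivial
  · obtain ⟨hxS, hyS⟩ := hS x y h hP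
    exact sub_depth_of_mult v W₀ hW σ S hρ1 hσ h2 ha hb hb0 hp hp2 ht hβ hx₀ hx₀v h hxS hyS hP

end Local

end Fermat.Agent.TR.ESide
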