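/-
TR / E-side of S44 (helper5): the local theorem `fixed_of_close` for the Frey curve.

* `fixed_of_close_point` : the local theorem for ONE `p`-torsion point with coordinates in `S`;
* `fixed_int_mult` : the same for a Legendre model with integer coefficients over
  `AlgebraicClosure ℚ` and a valuation subring above `p` (multiplicative reduction, `a₄ = t ^ p`);
* `frey_mult_model` : the Legendre model of the Frey curve at `p ∣ a b c`;
* `frey_break_witness` : **break witness.**  If `σ` moves the `p`-torsion point `x` of the Frey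
  curve (`p ∣ a b c`) and `H` is a group of automorphisms fixing `x`, then for every `ρ` with
  `ρ ^ (p-1) < v p` there is an `H`-fixed integral `z` with `ρ < v (σ z - z)`;
* `frey_fixed_of_close` : **"peu ramifié", depth form.**  If `σ` moves the integral elements of
  an intermediate field `S` over which `x` is rational by at most `ρ`, `ρ ^ (p-1) < v p`, then
  `σ` fixes `x`.
-/
import Fermat.Agent.TR.ESide.Depth
import Fermat.Agent.S13.LocP.LegDich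
import Fermat.Agent.S13.LocP.IntModel
import Fermat.Agent.S13.LocP.Frey
import Fermat.Agent.Lib.ECTors.Main
import Fermat.Agent.Lib.ECBiquad.Main
import Fermat.Agent.EC.Defs

set_option autoImplicit false

namespace Fermat.Agent.TR.ESide.Deep

open WeierstrassCurve WeierstrassCurve.Affine Polynomial
open Fermat.Agent.S05 Fermat.Agent.S13.LocP Fermat.Agent.TR.ESide

local notation "Qbar" => AlgebraicClosure ℚ

/-! ### The local theorem for one point -/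

section Local

variable {F K : Type*} [Field F] [Field K] [Algebra F K] {Γ₀ : Type*}
  [LinearOrderedCommGroupWithZero Γ₀] (v : Valuation K Γ₀) [DecidableEq K]

/-- The local theorem for one `p`-torsion point whose coordinates lie in `S`. -/
theorem fixed_of_close_point (W₀ : Affine F) (hW : IsLeg W₀) (σ : K ≃ₐ[F] K)
    (S : IntermediateField F K) {ρ : Γ₀}
    (hσ : ∀ c ∈ S, v c ≤ 1 → v (σ c - c) ≤ ρ)
    (h2 : v 2 = 1) (ha : v (algebraMap F K W₀.a₂) = 1)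
    (hb : v (algebraMap F K W₀.a₄) < 1) (hb0 : W₀.a₄ ≠ 0)
    {p : ℕ} (hp : p.Prime) (hp2 : p ≠ 2) (hρ : ρ ^ (p - 1) < v (p : K))
    {t : F} (ht : W₀.a₄ = t ^ p) {β : K} (hβ : β ^ 2 = algebraMap F K W₀.a₂)
    {x₀ : F} (hx₀ : x₀ ^ 2 + W₀.a₂ * x₀ + W₀.a₄ = 0) (hx₀v : v (algebraMap F K x₀) = 1)
    (s : Finset K)
    (hs : ∀ x, x ∈ s ↔ ∃ y h, (p : ℤ) • Point.some (W' := (W₀⁄K)) x y h = 0)
    (hpre : (W₀⁄K).preΨ (p : ℤ) = C (p : K) * ∏ x ∈ s, (X - C x))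
    (hint : ∀ n, v (((W₀⁄K).preΨ (p : ℤ)).coeff n) ≤ 1)
    {x y : K} (h : (W₀⁄K).Nonsingular x y) (hxS : x ∈ S) (hyS : y ∈ S)
    (hP : p • Point.some x y h = 0) :
    Point.map (W' := W₀) σ.toAlgHom (Point.some x y h) = Point.some x y h := by
  have hWK : IsLeg (W₀⁄K) := LocalMult.isLeg_baseChange W₀ hW
  have ha' : v (W₀⁄K).a₂ = 1 := ha
  have hb' : v (W₀⁄K).a₄ < 1 := hb
  have hρ1 : ρ < 1 := by
    by_contra hcon
    have h3 : (1 : Γ₀) ≤ ρ ^ (p - 1) := one_le_pow₀ (not_lt.mp hcon)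
    exact absurd (lt_of_le_of_lt h3 hρ) (not_lt.mpr (val_natCast_le_one v p))
  have hσP : p • Point.map (W' := W₀) σ.toAlgHom (Point.some x y h) = 0 := by
    rw [← map_nsmul, hP, map_zero]
  have hdep := sub_depth_of_mult v W₀ hW σ S hρ1 hσ h2 ha hb hb0 hp hp2 ht hβ hx₀ hx₀v h hxS hyS hP
  have hD : (p : ℤ) • (Point.some x y h -
      Point.map (W' := W₀) σ.toAlgHom (Point.some x y h)) = 0 := by
    rw [natCast_zsmul, smul_sub, hP, hσP, sub_zero]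
  have h0 := eq_zero_of_inDepth v hWK ha'.le hb'.le hp hp2 s hs hpre hint hρ hD hdep
  exact (sub_eq_zero.mp h0).symm

end Local

/-! ### Legendre models with integer coefficients -/

section IntModel

variable {K : Type*} [Field K]

theorem leg_Δ_eq {W : Affine K} (hW : IsLeg W) : W.Δ = 16 * W.a₄ ^ 2 * (W.a₂ ^ 2 - 4 * W.a₄) := by
  unfold WeierstrassCurve.Δ WeierstrassCurve.b₂ WeierstrassCurve.b₄ WeierstrassCurve.b₆
    WeierstrassCurve.b₈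
  rw [hW.a₁, hW.a₃, hW.a₆]
  ring

variable (Wℤ : WeierstrassCurve ℤ)

/-- Multiplicative reduction at `p`, integer Legendre model: an automorphism moving the integral
elements of `S` by at most `ρ`, `ρ ^ (p-1) < v p`, fixes every `p`-torsion point with coordinates
in `S`. -/
theorem fixed_int_mult (hW : IsLeg (Wℤ.map (Int.castRingHom ℚ) : Affine ℚ)) {p : ℕ}
    (hp : p.Prime) (hp2 : p ≠ 2) (h₂ : ¬ (p : ℤ) ∣ Wℤ.a₂) (h₄ : (p : ℤ) ∣ Wℤ.a₄)
    (h₄0 : Wℤ.a₄ ≠ 0) {t : ℤ} (ht : Wℤ.a₄ = t ^ p)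
    {x₀ : ℤ} (hx₀ : x₀ ^ 2 + Wℤ.a₂ * x₀ + Wℤ.a₄ = 0) (hx₀p : ¬ (p : ℤ) ∣ x₀)
    (A : ValuationSubring Qbar) (hA : A.LiesOverPrime p) (σ : Qbar ≃ₐ[ℚ] Qbar)
    (S : IntermediateField ℚ Qbar) {ρ : A.ValueGroup}
    (hρ : ρ ^ (p - 1) < A.valuation ((p : ℕ) : Qbar))
    (hσ : ∀ c ∈ S, c ∈ A → A.valuation (σ c - c) ≤ ρ)
    {x y : Qbar} (h : ((Wℤ.map (Int.castRingHom ℚ) : Affine ℚ)⁄Qbar).Nonsingular x y)
    (hxS : x ∈ S) (hyS : y ∈ S) (hP : p • Point.some x y h = 0) :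
    Point.map (W' := (Wℤ.map (Int.castRingHom ℚ) : Affine ℚ)) σ.toAlgHom (Point.some x y h)
      = Point.some x y h := by
  have hpA : A.valuation ((p : ℕ) : Qbar) < 1 := by
    have : ((p : ℕ) : Qbar) ∈ A.nonunits := hA
    rwa [ValuationSubring.mem_nonunits_iff] at this
  have hσ' : ∀ c ∈ S, A.valuation c ≤ 1 → A.valuation (σ c - c) ≤ ρ :=
    fun c hc hc1 => hσ c hc ((A.valuation_le_one_iff c).mp hc1)
  have h2 := val_two_eq_one hp hp2 A hpA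
  have ha : A.valuation (algebraMap ℚ Qbar (Wℤ.map (Int.castRingHom ℚ) : Affine ℚ).a₂) = 1 := by
    rw [algebraMap_map_a₂]
    exact val_intCast_eq_one A hp hpA h₂
  have hb : A.valuation (algebraMap ℚ Qbar (Wℤ.map (Int.castRingHom ℚ) : Affine ℚ).a₄) < 1 := by
    rw [algebraMap_map_a₄]
    exact val_intCast_lt_one A hpA h₄
  have hb0 : (Wℤ.map (Int.castRingHom ℚ) : Affine ℚ).a₄ ≠ 0 := by
    show Int.castRingHom ℚ Wℤ.a₄ ≠ 0
    rw [eq_intCast]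
    exact Int.cast_ne_zero.mpr h₄0
  have ht' : (Wℤ.map (Int.castRingHom ℚ) : Affine ℚ).a₄ = ((t : ℤ) : ℚ) ^ p := by
    show Int.castRingHom ℚ Wℤ.a₄ = _
    rw [eq_intCast, ht, Int.cast_pow]
  have hx₀' : ((x₀ : ℤ) : ℚ) ^ 2 + (Wℤ.map (Int.castRingHom ℚ) : Affine ℚ).a₂ * ((x₀ : ℤ) : ℚ)
      + (Wℤ.map (Int.castRingHom ℚ) : Affine ℚ).a₄ = 0 := by
    show ((x₀ : ℤ) : ℚ) ^ 2 + Int.castRingHom ℚ Wℤ.a₂ * ((x₀ : ℤ) : ℚ)
      + Int.castRingHom ℚ Wℤ.a₄ = 0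
    rw [eq_intCast, eq_intCast]
    exact_mod_cast congrArg (Int.cast : ℤ → ℚ) hx₀
  have hx₀v : A.valuation (algebraMap ℚ Qbar ((x₀ : ℤ) : ℚ)) = 1 := by
    rw [map_intCast]
    exact val_intCast_eq_one A hp hpA hx₀p
  obtain ⟨β, hβ⟩ := IsAlgClosed.exists_pow_nat_eq
    (algebraMap ℚ Qbar (Wℤ.map (Int.castRingHom ℚ) : Affine ℚ).a₂) (n := 2) (by norm_num)
  -- the torsion data
  have hodd : ¬ Even p := Nat.not_even_iff_odd.mpr (hp.eq_two_or_odd'.resolve_left hp2)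
  have hpK : ((p : ℕ) : Qbar) ≠ 0 := Nat.cast_ne_zero.mpr hp.ne_zero
  have hΔ : (Wℤ.map (Int.castRingHom ℚ) : Affine ℚ).Δ ≠ 0 := by
    rw [leg_Δ_eq hW]
    have e2 : (Wℤ.map (Int.castRingHom ℚ) : Affine ℚ).a₂ = ((Wℤ.a₂ : ℤ) : ℚ) := by
      show Int.castRingHom ℚ Wℤ.a₂ = _
      rw [eq_intCast]
    have e4 : (Wℤ.map (Int.castRingHom ℚ) : Affine ℚ).a₄ = ((Wℤ.a₄ : ℤ) : ℚ) := by
      show Int.castRingHom ℚ Wℤ.a₄ = _
      rw [eq_intCast]
    rw [e2, e4]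
    have hne : Wℤ.a₂ ^ 2 - 4 * Wℤ.a₄ ≠ 0 := by
      intro h0
      have hqi : Prime (p : ℤ) := Nat.prime_iff_prime_int.mp hp
      have h1 : (p : ℤ) ∣ Wℤ.a₂ ^ 2 := by
        have : Wℤ.a₂ ^ 2 = 4 * Wℤ.a₄ := by linear_combination h0
        rw [this]
        exact Dvd.dvd.mul_left h₄ _
      exact h₂ (hqi.dvd_of_dvd_pow h1)
    have h16 : ((16 * Wℤ.a₄ ^ 2 * (Wℤ.a₂ ^ 2 - 4 * Wℤ.a₄) : ℤ) : ℚ) ≠ 0 :=
      Int.cast_ne_zero.mpr (mul_ne_zero (mul_ne_zero (by norm_num) (pow_ne_zero 2 h₄0)) hne)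
    intro h0
    apply h16
    push_cast
    exact h0
  have hcard := Fermat.Agent.Lib.ECBiquad.card_torsionBy_rat
    (Wℤ.map (Int.castRingHom ℚ)) hΔ hp.ne_zero
  have hs := Fermat.Agent.Lib.ECTors.Card.mem_torsionXs
    (Fermat.Agent.Lib.ECTors.torsionCriterion
      ((Wℤ.map (Int.castRingHom ℚ) : Affine ℚ)⁄Qbar)) hodd hpK
  have hpre := (Fermat.Agent.Lib.ECTors.preΨ_eq_prod_of_card
    ((Wℤ.map (Int.castRingHom ℚ) : Affine ℚ)⁄Qbar) hodd hpK hcard).2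
  exact fixed_of_close_point A.valuation _ hW σ S hσ' h2 ha hb hb0 hp hp2 hρ ht' hβ hx₀' hx₀v
    _ hs hpre (val_coeff_preΨ_le_one A Wℤ (p : ℤ)) h hxS hyS hP

end IntModel

/-! ### The Frey curve -/

section Frey

/-- The Legendre model of the Frey curve at `p ∣ a b c`: integer coefficients, multiplicative
reduction at `p`, `a₄` a `p`-th power, and a rational point `(x₀, 0)` of order two with `p ∤ x₀`;
`(x, y) ↦ (4 x + r₀, 8 y + 4 x)` is the transfer from the Frey curve. -/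
theorem frey_mult_model (P : FreyPackage) (hpabc : (P.p : ℤ) ∣ P.a * P.b * P.c) :
    ∃ (Wℤ : WeierstrassCurve ℤ) (r₀ : ℚ) (t x₀ : ℤ),
      IsLeg (Wℤ.map (Int.castRingHom ℚ) : Affine ℚ) ∧
      (Wℤ.map (Int.castRingHom ℚ) : Affine ℚ).a₂ = 4 * P.freyCurve.a₂ + 1 - 3 * r₀ ∧
      (Wℤ.map (Int.castRingHom ℚ) : Affine ℚ).a₄ =
        16 * P.freyCurve.a₄ - 2 * r₀ * (4 * P.freyCurve.a₂ + 1) + 3 * r₀ ^ 2 ∧
      r₀ ^ 3 - (4 * P.freyCurve.a₂ + 1) * r₀ ^ 2 + 16 * P.freyCurve.a₄ * r₀ = 0 ∧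
      ¬ (P.p : ℤ) ∣ Wℤ.a₂ ∧ (P.p : ℤ) ∣ Wℤ.a₄ ∧ Wℤ.a₄ ≠ 0 ∧ Wℤ.a₄ = t ^ P.p ∧
      x₀ ^ 2 + Wℤ.a₂ * x₀ + Wℤ.a₄ = 0 ∧ ¬ (P.p : ℤ) ∣ x₀ := by
  have hqi : Prime (P.p : ℤ) := Nat.prime_iff_prime_int.mp P.pp
  have hab : (P.p : ℤ) ∣ P.a → (P.p : ℤ) ∣ P.b → False := fun h1 h2 =>
    hqi.not_dvd_one (P.hgcdab ▸ dvd_gcd h1 h2)
  have hac : (P.p : ℤ) ∣ P.a → (P.p : ℤ) ∣ P.c → False := fun h1 h2 =>
    hqi.not_dvd_one (P.hgcdac ▸ dvd_gcd h1 h2)
  have hFLT := P.hFLT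
  have hFLTQ : (P.a : ℚ) ^ P.p + (P.b : ℚ) ^ P.p = (P.c : ℚ) ^ P.p := by exact_mod_cast hFLT
  have hE₂ : P.freyCurve.a₂ = ((P.b : ℚ) ^ P.p - 1 - (P.a : ℚ) ^ P.p) / 4 := rfl
  have hE₄ : P.freyCurve.a₄ = -((P.a : ℚ) ^ P.p) * ((P.b : ℚ) ^ P.p) / 16 := rfl
  by_cases hc : (P.p : ℤ) ∣ P.c
  · -- `p ∣ c`
    have hna : ¬ (P.p : ℤ) ∣ P.a := fun h => hac h hc
    refine ⟨legC P, -((P.a : ℚ) ^ P.p), P.a * P.c, -(P.a ^ P.p), isLeg_legC P, ?_, ?_, ?_,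
      ?_, ?_, ?_, ?_, ?_, ?_⟩
    · show Int.castRingHom ℚ (P.a ^ P.p + P.c ^ P.p) = _
      rw [hE₂, eq_intCast]; push_cast; rw [← hFLTQ]; ring
    · show Int.castRingHom ℚ (P.a ^ P.p * P.c ^ P.p) = _
      rw [hE₂, hE₄, eq_intCast]; push_cast; rw [← hFLTQ]; ring
    · rw [hE₂, hE₄]; ring
    · show ¬ (P.p : ℤ) ∣ P.a ^ P.p + P.c ^ P.p
      intro h
      have h1 : (P.p : ℤ) ∣ P.c ^ P.p := dvd_pow hc P.hp0
      have h2 : (P.p : ℤ) ∣ P.a ^ P.p := (dvd_add_left h1).mp h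
      exact hna (hqi.dvd_of_dvd_pow h2)
    · show (P.p : ℤ) ∣ P.a ^ P.p * P.c ^ P.p
      exact Dvd.dvd.mul_left (dvd_pow hc P.hp0) _
    · show P.a ^ P.p * P.c ^ P.p ≠ 0
      exact mul_ne_zero (pow_ne_zero _ P.ha0) (pow_ne_zero _ P.hc0)
    · show P.a ^ P.p * P.c ^ P.p = (P.a * P.c) ^ P.p
      exact (mul_pow _ _ _).symm
    · show (-(P.a ^ P.p)) ^ 2 + (P.a ^ P.p + P.c ^ P.p) * (-(P.a ^ P.p))
        + P.a ^ P.p * P.c ^ P.p = 0
      ring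
    · rw [dvd_neg]
      exact fun h => hna (hqi.dvd_of_dvd_pow h)
  · -- `p ∣ a b`
    have hab' : (P.p : ℤ) ∣ P.a * P.b := (hqi.dvd_or_dvd hpabc).resolve_right hc
    have hna₂ : ¬ (P.p : ℤ) ∣ P.b ^ P.p - P.a ^ P.p := by
      intro h
      rcases hqi.dvd_or_dvd hab' with h1 | h1
      · have h2 : (P.p : ℤ) ∣ P.a ^ P.p := dvd_pow h1 P.hp0
        have h3 : (P.p : ℤ) ∣ P.b ^ P.p := (dvd_sub_left h2).mp h
        exact hab h1 (hqi.dvd_of_dvd_pow h3)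
      · have h2 : (P.p : ℤ) ∣ P.b ^ P.p := dvd_pow h1 P.hp0
        have h3 : (P.p : ℤ) ∣ P.a ^ P.p := (dvd_sub_right h2).mp h
        exact hab (hqi.dvd_of_dvd_pow h3) h1
    have hpa₄ : (P.p : ℤ) ∣ -(P.a ^ P.p * P.b ^ P.p) := by
      rw [dvd_neg, ← mul_pow]
      exact dvd_pow hab' P.hp0
    have ha₄0 : -(P.a ^ P.p * P.b ^ P.p) ≠ 0 :=
      neg_ne_zero.mpr (mul_ne_zero (pow_ne_zero _ P.ha0) (pow_ne_zero _ P.hb0))
    have ht : -(P.a ^ P.p * P.b ^ P.p) = (-(P.a * P.b)) ^ P.p := by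
      rw [P.hp_odd.neg_pow, mul_pow]
    have h2Q : Int.castRingHom ℚ (P.b ^ P.p - P.a ^ P.p)
        = 4 * P.freyCurve.a₂ + 1 - 3 * (0 : ℚ) := by
      rw [hE₂, eq_intCast]; push_cast; ring
    have h4Q : Int.castRingHom ℚ (-(P.a ^ P.p * P.b ^ P.p))
        = 16 * P.freyCurve.a₄ - 2 * (0 : ℚ) * (4 * P.freyCurve.a₂ + 1) + 3 * (0 : ℚ) ^ 2 := by
      rw [hE₂, hE₄, eq_intCast]; push_cast; ring
    by_cases hpa : (P.p : ℤ) ∣ P.a
    · have hnb : ¬ (P.p : ℤ) ∣ P.b := fun h => hab hpa h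
      refine ⟨legAB P, 0, -(P.a * P.b), -(P.b ^ P.p), isLeg_legAB P, h2Q, h4Q, by ring,
        hna₂, hpa₄, ha₄0, ht, ?_, ?_⟩
      · show (-(P.b ^ P.p)) ^ 2 + (P.b ^ P.p - P.a ^ P.p) * (-(P.b ^ P.p))
          + -(P.a ^ P.p * P.b ^ P.p) = 0
        ring
      · rw [dvd_neg]
        exact fun h => hnb (hqi.dvd_of_dvd_pow h)
    · refine ⟨legAB P, 0, -(P.a * P.b), P.a ^ P.p, isLeg_legAB P, h2Q, h4Q, by ring,
        hna₂, hpa₄, ha₄0, ht, ?_, ?_⟩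
      · show (P.a ^ P.p) ^ 2 + (P.b ^ P.p - P.a ^ P.p) * (P.a ^ P.p)
          + -(P.a ^ P.p * P.b ^ P.p) = 0
        ring
      · exact fun h => hpa (hqi.dvd_of_dvd_pow h)

open Fermat.Agent.EC in
/-- **The local theorem for the Frey curve, subgroup form.**  `p ∣ a b c`, `A` a valuation
subring of `AlgebraicClosure ℚ` above `p`, `x` a `p`-torsion point fixed by the group `H`.  If
`σ` moves every `H`-fixed integral element by at most `ρ`, and `ρ ^ (p-1) < v p`, then `σ`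
fixes `x`. -/
theorem frey_fixed_of_close_subgroup (P : FreyPackage) (hpabc : (P.p : ℤ) ∣ P.a * P.b * P.c)
    (A : ValuationSubring Qbar) (hA : A.LiesOverPrime P.p) (σ : Qbar ≃ₐ[ℚ] Qbar)
    (H : Subgroup (Qbar ≃ₐ[ℚ] Qbar)) (x : FreyV P) (hH : ∀ τ ∈ H, τ • x = x)
    {ρ : A.ValueGroup} (hρ : ρ ^ (P.p - 1) < A.valuation ((P.p : ℕ) : Qbar))
    (hσ : ∀ z ∈ A, (∀ τ ∈ H, τ z = z) → A.valuation (σ z - z) ≤ ρ) : σ • x = x := by
  classical
  obtain ⟨Wℤ, r₀, t, x₀, hW, h₂, h₄, h₆, hna₂, hpa₄, ha₄0, ht, hx₀, hx₀p⟩ :=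
    frey_mult_model P hpabc
  obtain ⟨φ, hφinj, hφσ⟩ := exists_equivariant_transfer (K := Qbar) (P.freyCurve : Affine ℚ)
    (Wℤ.map (Int.castRingHom ℚ) : Affine ℚ) r₀ rfl rfl rfl hW h₂ h₄ h₆ two_ne_zero
  have hp2 : P.p ≠ 2 := by have := P.hp5; omega
  have hQp : P.p • φ x.1 = 0 := by rw [← map_nsmul, freyV_nsmul_coe, map_zero]
  suffices hfix : Point.map (W' := (Wℤ.map (Int.castRingHom ℚ) : Affine ℚ)) σ.toAlgHom (φ x.1)
      = φ x.1 by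
    apply Subtype.ext
    apply hφinj
    rw [freyV_smul_coe, hφσ, hfix]
  have hHφ : ∀ τ ∈ H, Point.map (W' := (Wℤ.map (Int.castRingHom ℚ) : Affine ℚ)) τ.toAlgHom
      (φ x.1) = φ x.1 := by
    intro τ hτ
    rw [← hφσ, ← freyV_smul_coe, hH τ hτ]
  rcases hQ : φ x.1 with _ | ⟨X, Y, hXY⟩
  · rfl
  · rw [hQ] at hQp
    have key : ∀ τ ∈ H, τ X = X ∧ τ Y = Y := by
      intro τ hτ
      have h1 := hHφ τ hτ
      rw [hQ, Point.map_some] at h1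
      simp only [Point.some.injEq] at h1
      exact h1
    have hXS : X ∈ IntermediateField.fixedField H :=
      (IntermediateField.mem_fixedField_iff H X).mpr fun τ hτ => (key τ hτ).1
    have hYS : Y ∈ IntermediateField.fixedField H :=
      (IntermediateField.mem_fixedField_iff H Y).mpr fun τ hτ => (key τ hτ).2
    exact fixed_int_mult Wℤ hW P.pp hp2 hna₂ hpa₄ ha₄0 ht hx₀ hx₀p A hA σ
      (IntermediateField.fixedField H) hρ
      (fun c hc hcA => hσ c hcA fun τ hτ => (IntermediateField.mem_fixedField_iff H c).mp hc τ hτ)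
      hXY hXS hYS hQp

open Fermat.Agent.EC in
/-- **Break witness for the Frey curve at `p ∣ a b c`.**  If `σ` moves the `p`-torsion point
`x` and `H` is a group of automorphisms fixing `x`, then for every `ρ` with `ρ ^ (p-1) < v p`
there is an `H`-fixed integral `z` with `ρ < v (σ z - z)`: the extension generated by `x` is
not deeper than the cyclotomic one ("peu ramifié"). -/
theorem frey_break_witness (P : FreyPackage) (hpabc : (P.p : ℤ) ∣ P.a * P.b * P.c)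
    (A : ValuationSubring Qbar) (hA : A.LiesOverPrime P.p) (σ : Qbar ≃ₐ[ℚ] Qbar)
    (H : Subgroup (Qbar ≃ₐ[ℚ] Qbar)) (x : FreyV P) (hH : ∀ τ ∈ H, τ • x = x)
    (hx : σ • x ≠ x) {ρ : A.ValueGroup} (hρ : ρ ^ (P.p - 1) < A.valuation ((P.p : ℕ) : Qbar)) :
    ∃ z : Qbar, z ∈ A ∧ (∀ τ ∈ H, τ z = z) ∧ ρ < A.valuation (σ z - z) := by
  by_contra hcon
  apply hx
  refine frey_fixed_of_close_subgroup P hpabc A hA σ H x hH hρ fun z hzA hzH => ?_
  by_contra h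
  exact hcon ⟨z, hzA, hzH, not_le.mp h⟩

open Fermat.Agent.EC in
/-- **"Peu ramifié", depth form.**  `p ∣ a b c`, `A` above `p`, `S` an intermediate field over
which the `p`-torsion point `x` of the Frey curve is rational (every automorphism fixing `S`
pointwise fixes `x`).  If `σ` moves every integral element of `S` by at most `ρ` and
`ρ ^ (p-1) < v p`, then `σ` fixes `x`. -/
theorem frey_fixed_of_close (P : FreyPackage) (hpabc : (P.p : ℤ) ∣ P.a * P.b * P.c)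
    (A : ValuationSubring Qbar) (hA : A.LiesOverPrime P.p) (σ : Qbar ≃ₐ[ℚ] Qbar)
    (S : IntermediateField ℚ Qbar) (x : FreyV P)
    (hxS : ∀ τ : Qbar ≃ₐ[ℚ] Qbar, (∀ c ∈ S, τ c = c) → τ • x = x)
    {ρ : A.ValueGroup} (hρ : ρ ^ (P.p - 1) < A.valuation ((P.p : ℕ) : Qbar))
    (hσ : ∀ c ∈ S, c ∈ A → A.valuation (σ c - c) ≤ ρ) : σ • x = x := by
  have hAlg : Algebra.IsAlgebraic ℚ Qbar := AlgebraicClosure.isAlgebraic ℚ
  have hCl : IsAlgClosure ℚ Qbar := ⟨inferInstance, inferInstance⟩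
  have hNorm : Normal ℚ Qbar := IsAlgClosure.normal ℚ Qbar
  have hSep : Algebra.IsSeparable ℚ Qbar := Algebra.IsAlgebraic.isSeparable_of_perfectField
  have hGal : IsGalois ℚ Qbar := ⟨⟩
  refine frey_fixed_of_close_subgroup P hpabc A hA σ S.fixingSubgroup x
    (fun τ hτ => hxS τ fun c hc => (IntermediateField.mem_fixingSubgroup_iff S τ).mp hτ c hc)
    hρ fun z hzA hzH => ?_
  refine hσ z ?_ hzA
  have h1 : z ∈ IntermediateField.fixedField S.fixingSubgroup :=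
    (IntermediateField.mem_fixedField_iff _ z).mpr hzH
  rwa [InfiniteGalois.fixedField_fixingSubgroup] at h1

open Fermat.Agent.EC in
/-- **Break witness, inertia form** (the shape of a "break" field of a local package for `E[p]`
at `p`): if `σ` moves the `p`-torsion point `x`, then for every `ρ` with `ρ ^ (p-1) < v p` there
is an integral `z`, fixed by every inertia element fixing `ζ` and `x`, with `ρ < v (σ z - z)`.
No hypothesis on `σ` or `ζ`. -/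
theorem frey_break_inertia (P : FreyPackage) (hpabc : (P.p : ℤ) ∣ P.a * P.b * P.c)
    (A : ValuationSubring Qbar) (hA : A.LiesOverPrime P.p) (ζ : Qbar) (σ : Qbar ≃ₐ[ℚ] Qbar)
    (x : FreyV P) (hx : σ • x ≠ x) {ρ : A.ValueGroup}
    (hρ : ρ ^ (P.p - 1) < A.valuation ((P.p : ℕ) : Qbar)) :
    ∃ z : Qbar, z ∈ A ∧
      (∀ τ ∈ A.inertiaSubgroupIn ℚ, τ ζ = ζ → τ • x = x → τ z = z) ∧
      ρ < A.valuation (σ z - z) := by
  obtain ⟨z, hzA, hzH, hz⟩ := frey_break_witness P hpabc A hA σ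
    (A.inertiaSubgroupIn ℚ ⊓ MulAction.stabilizer (Qbar ≃ₐ[ℚ] Qbar) ζ ⊓
      MulAction.stabilizer (Qbar ≃ₐ[ℚ] Qbar) x) x
    (fun τ hτ => MulAction.mem_stabilizer_iff.mp hτ.2) hx hρ
  refine ⟨z, hzA, fun τ hτI hτζ hτx => hzH τ ⟨⟨hτI, ?_⟩, ?_⟩, hz⟩
  · exact MulAction.mem_stabilizer_iff.mpr hτζ
  · exact MulAction.mem_stabilizer_iff.mpr hτx

end Frey

end Fermat.Agent.TR.ESide.Deep
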