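/-
TR / E-side of S44 (helper5): brick (E0) of (E-ST) by DEEP `p`-DIVISION.

For the Legendre curve `y² = x³ + a x² + b x` with `v a = 1 = v 2`, `v b ≤ v p < 1` over an
algebraically closed valued field: the kernel of reduction contains a non-zero `p`-torsion point.

* `exists_mem_val_sum_le` : some element of a multiset has valuation at least that of the sum;
* `exists_deep_division` : if `1 < v n ^ 2 * v x(S)` then `S = n • R` with
  `v n ^ 2 * v x(S) ≤ v x(R)` (root sum of the monic polynomial `Φ_n - x(S) ΨSq_n`);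
* `exists_unit_point` : the point `T` of the kernel of reduction with `u(T) = ζ`;
* `exists_torsion_inKer` : the local statement;
* `exists_torsion_inE1_int` : integer Legendre models over `AlgebraicClosure ℚ`, `A` above `p`.
-/
import Fermat.Agent.TR.ESide.FreyDeep
import Fermat.Agent.TR.FreyPeu.UMul
import Fermat.Agent.Lib.ECTors.MulFormula
import Fermat.Agent.PT.G.CycloField

set_option autoImplicit false

namespace Fermat.Agent.TR.ESide.E0

open WeierstrassCurve WeierstrassCurve.Affine Polynomial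
open Fermat.Agent.S05 Fermat.Agent.S05.E1 Fermat.Agent.TR.FreyPeu

section Sum

variable {K : Type*} [Field K] {Γ₀ : Type*} [LinearOrderedCommGroupWithZero Γ₀]
  (v : Valuation K Γ₀)

/-- Some element of a multiset with non-zero sum has valuation at least that of the sum. -/
theorem exists_mem_val_sum_le (m : Multiset K) (h : m.sum ≠ 0) : ∃ r ∈ m, v m.sum ≤ v r := by
  induction m using Multiset.induction_on with
  | empty => simp at h
  | cons a s ih =>
    rw [Multiset.sum_cons] at h ⊢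
    rcases le_max_iff.mp (v.map_add a s.sum) with h1 | h1
    · exact ⟨a, Multiset.mem_cons_self a s, h1⟩
    · have hs : s.sum ≠ 0 := by
        intro h0
        rw [h0] at h h1
        rw [map_zero] at h1
        exact h (v.zero_iff.mp (le_antisymm h1 zero_le))
      obtain ⟨r, hr, hle⟩ := ih hs
      exact ⟨r, Multiset.mem_cons_of_mem hr, h1.trans hle⟩

end Sum

section Local

variable {K : Type*} [Field K] [IsAlgClosed K] [DecidableEq K] (A : ValuationSubring K)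
  {W : Affine K}

omit [IsAlgClosed K] [DecidableEq K] in
/-- For a point of the kernel of reduction, `v x · v (x / y) ^ 2 = 1`. -/
theorem val_x_mul_val_z_sq {x y a b : K} (ha : a ∈ A) (hb : b ∈ A)
    (e : y ^ 2 = x ^ 3 + a * x ^ 2 + b * x) (hx : x ∉ A) :
    A.valuation x * A.valuation (x / y) ^ 2 = 1 := by
  obtain ⟨hx0, hy0, hs, hz, hid⟩ := ker_basic A ha hb e hx
  have ht : A.valuation (a * x⁻¹ + b * x⁻¹ ^ 2) < 1 := by
    refine A.valuation.map_add_lt (val_mul_lt_one_of_mem A ha hs) ?_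
    refine val_mul_lt_one_of_mem A hb ?_
    rw [map_pow]
    exact pow_lt_one₀ zero_le hs (by norm_num)
  have hg : A.valuation (1 + a * x⁻¹ + b * x⁻¹ ^ 2) = 1 := by
    rw [add_assoc]; exact val_one_add_small A ht
  have h1 := congrArg A.valuation hid
  rw [map_mul, hg, mul_one, map_pow, map_inv₀] at h1
  rw [← h1]
  exact mul_inv_cancel₀ ((Valuation.ne_zero_iff _).mpr hx0)

omit [IsAlgClosed K] [DecidableEq K] in
/-- A point of `y² = x³ + a x² + b x` with `y ≠ 0` is nonsingular (characteristic `≠ 2`). -/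
theorem nonsingular_of_y_ne_zero (hW : IsLeg W) (h2 : (2 : K) ≠ 0) {x y : K}
    (e : y ^ 2 = x ^ 3 + W.a₂ * x ^ 2 + W.a₄ * x) (hy : y ≠ 0) : W.Nonsingular x y :=
  (hW.nonsingular_iff x y).mpr ⟨e, Or.inr (mul_ne_zero h2 hy)⟩

/-- **Deep division.**  If `1 < v n ^ 2 · v x(S)`, then `S = n • R` for a point `R` with
`v n ^ 2 · v x(S) ≤ v x(R)`: the monic polynomial `Φ_n - x(S) ΨSq_n` of degree `n ^ 2` has root
sum `n ^ 2 x(S) - (integral)`, so one of its roots is at least that large. -/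
theorem exists_deep_division (hW : IsLeg W) (h2 : (2 : K) ≠ 0)
    (h₂ : W.a₂ ∈ A) (h₄ : W.a₄ ∈ A) {n : ℕ} (hn : 0 < n)
    (hΦ : (W.Φ (n : ℤ)).coeff (n ^ 2 - 1) ∈ A)
    {xS yS : K} (hS : W.Nonsingular xS yS)
    (hM : 1 < A.valuation (n : K) ^ 2 * A.valuation xS) :
    ∃ (X Y : K) (h : W.Nonsingular X Y), n • Point.some X Y h = Point.some xS yS hS ∧
      A.valuation (n : K) ^ 2 * A.valuation xS ≤ A.valuation X := by
  obtain ⟨G, hG⟩ : ∃ G : K[X], G = W.Φ (n : ℤ) - C xS * W.ΨSq (n : ℤ) := ⟨_, rfl⟩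
  have hnat : (n : ℤ).natAbs = n := Int.natAbs_natCast n
  have hdΦ : (W.Φ (n : ℤ)).natDegree = n ^ 2 := by rw [natDegree_Φ, hnat]
  have hdΨ : (C xS * W.ΨSq (n : ℤ)).natDegree < (W.Φ (n : ℤ)).natDegree := by
    rw [hdΦ]
    calc (C xS * W.ΨSq (n : ℤ)).natDegree ≤ (W.ΨSq (n : ℤ)).natDegree := natDegree_C_mul_le _ _
      _ ≤ (n : ℤ).natAbs ^ 2 - 1 := natDegree_ΨSq_le W (n : ℤ)
      _ < n ^ 2 := by rw [hnat]; exact Nat.sub_lt (pow_pos hn 2) one_pos
  have hGd : G.natDegree = n ^ 2 := by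
    rw [hG, natDegree_sub_eq_left_of_natDegree_lt hdΨ, hdΦ]
  have hΦm : (W.Φ (n : ℤ)).Monic := leadingCoeff_Φ W (n : ℤ)
  have hGm : G.Monic := by
    rw [hG]
    exact hΦm.sub_of_left (degree_lt_degree hdΨ)
  have hnext : G.nextCoeff = (W.Φ (n : ℤ)).coeff (n ^ 2 - 1) - xS * (n : K) ^ 2 := by
    rw [nextCoeff_of_natDegree_pos (by rw [hGd]; exact pow_pos hn 2), hGd, hG, coeff_sub,
      coeff_C_mul]
    have h := coeff_ΨSq W (n : ℤ)
    rw [hnat] at h
    rw [h]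
    push_cast
    ring
  have hsum : G.roots.sum = xS * (n : K) ^ 2 - (W.Φ (n : ℤ)).coeff (n ^ 2 - 1) := by
    have h := (IsAlgClosed.splits G).nextCoeff_eq_neg_sum_roots_of_monic hGm
    rw [hnext] at h
    linear_combination h
  have hval : A.valuation G.roots.sum = A.valuation (n : K) ^ 2 * A.valuation xS := by
    rw [hsum]
    have h1 : A.valuation ((W.Φ (n : ℤ)).coeff (n ^ 2 - 1)) < A.valuation (xS * (n : K) ^ 2) := by
      rw [map_mul, map_pow, mul_comm]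
      exact lt_of_le_of_lt ((A.valuation_le_one_iff _).mpr hΦ) hM
    rw [Valuation.map_sub_eq_of_lt_left _ h1, map_mul, map_pow, mul_comm]
  have hne : G.roots.sum ≠ 0 := by
    intro h0
    rw [h0, map_zero] at hval
    rw [← hval] at hM
    exact not_lt_zero hM
  obtain ⟨X, hXmem, hXle⟩ := exists_mem_val_sum_le A.valuation G.roots hne
  rw [hval] at hXle
  have hXroot : G.eval X = 0 := (mem_roots hGm.ne_zero).mp hXmem
  have hev : (W.Φ (n : ℤ)).eval X = xS * (W.ΨSq (n : ℤ)).eval X := by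
    rw [hG, eval_sub, eval_mul, eval_C] at hXroot
    linear_combination hXroot
  have hX1 : 1 < A.valuation X := lt_of_lt_of_le hM hXle
  have hXA : X ∉ A := by
    rw [← A.valuation_le_one_iff]
    exact not_le.mpr hX1
  obtain ⟨Y, hY⟩ := IsAlgClosed.exists_pow_nat_eq (X ^ 3 + W.a₂ * X ^ 2 + W.a₄ * X) (n := 2)
    (by norm_num)
  obtain ⟨hX0, hY0, -, -, -⟩ := ker_basic A h₂ h₄ hY hXA
  have hXY : W.Nonsingular X Y := nonsingular_of_y_ne_zero hW h2 hY hY0
  have hΨ : (W.ΨSq (n : ℤ)).eval X ≠ 0 := by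
    intro h0
    have h := Fermat.Agent.Lib.ECTors.Φ_eval_ne_zero_of_ΨSq_eval_eq_zero W hXY h0
    rw [hev, h0, mul_zero] at h
    exact h rfl
  have hnz : (n : ℤ) • Point.some X Y hXY ≠ 0 := fun h0 =>
    hΨ ((Fermat.Agent.Lib.ECTors.zsmul_eq_zero_iff W hXY (n : ℤ)).mp h0)
  rcases hR : (n : ℤ) • Point.some X Y hXY with _ | ⟨x', y', h'⟩
  · exact absurd hR hnz
  · have hx := Fermat.Agent.Lib.ECTors.x_zsmul W hXY (n : ℤ) h' hR
    have hx' : x' = xS := by
      have h : x' * (W.ΨSq (n : ℤ)).eval X = xS * (W.ΨSq (n : ℤ)).eval X := by rw [hx, hev]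
      exact mul_right_cancel₀ hΨ h
    subst hx'
    rcases Y_eq_of_X_eq h'.1 hS.1 rfl with hy | hy
    · subst hy
      refine ⟨X, Y, hXY, ?_, hXle⟩
      rw [← natCast_zsmul, hR]
    · refine ⟨X, W.negY X Y, (nonsingular_neg ..).mpr hXY, ?_, hXle⟩
      rw [← Point.neg_some hXY, smul_neg, ← natCast_zsmul, hR, Point.neg_some h']
      congr 1
      rw [hy, negY_negY]

omit [DecidableEq K] in
/-- The point `T` of the kernel of reduction with unit coordinate `u(T) = ζ`, for `v (ζ - 1) < 1`,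
`ζ ≠ 1`. -/
theorem exists_unit_point (hW : IsLeg W) (h2v : A.valuation (2 : K) = 1)
    (h₂ : A.valuation W.a₂ = 1) {β : K} (hβ : β ^ 2 = W.a₂)
    {ζ : K} (hζ1 : ζ ≠ 1) (hζv : A.valuation (ζ - 1) < 1) :
    ∃ (x y : K) (h : W.Nonsingular x y), x ∉ A ∧ uCoord β (Point.some x y h) = ζ ∧
      A.valuation (x / y) = A.valuation (ζ - 1) := by
  have h2 : (2 : K) ≠ 0 := by
    intro h0
    rw [h0, map_zero] at h2v
    exact zero_ne_one h2v
  have hβv : A.valuation β = 1 := by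
    have h := congrArg A.valuation hβ
    rw [map_pow, h₂] at h
    exact (pow_eq_one_iff_of_nonneg zero_le two_ne_zero).mp h
  have hβ0 : β ≠ 0 := by
    intro h0
    rw [h0, map_zero] at hβv
    exact zero_ne_one hβv
  have h1ζ : A.valuation (1 + ζ) = 1 := by
    have e : 1 + ζ = 2 + (ζ - 1) := by ring
    rw [e, Valuation.map_add_eq_of_lt_left _ (by rw [h2v]; exact hζv), h2v]
  have h1ζ0 : 1 + ζ ≠ 0 := by
    intro h0
    rw [h0, map_zero] at h1ζ
    exact zero_ne_one h1ζ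
  have hζ0 : ζ - 1 ≠ 0 := sub_ne_zero.mpr hζ1
  have hlam0 : A.valuation (ζ - 1) ≠ 0 := (Valuation.ne_zero_iff _).mpr hζ0
  obtain ⟨z₀, hz₀⟩ : ∃ z₀ : K, z₀ = (1 - ζ) / (β * (1 + ζ)) := ⟨_, rfl⟩
  have hz₀v : A.valuation z₀ = A.valuation (ζ - 1) := by
    rw [hz₀, map_div₀, map_mul, hβv, h1ζ, mul_one, div_one, Valuation.map_sub_swap]
  have hz₀0 : z₀ ≠ 0 := by
    rw [hz₀]
    exact div_ne_zero (sub_ne_zero.mpr hζ1.symm) (mul_ne_zero hβ0 h1ζ0)
  obtain ⟨c, hc⟩ : ∃ c : K, c = z₀⁻¹ ^ 2 - W.a₂ := ⟨_, rfl⟩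
  have hcv : 1 < A.valuation c := by
    have h1 : 1 < A.valuation (z₀⁻¹ ^ 2) := by
      rw [map_pow, map_inv₀, hz₀v]
      exact one_lt_pow₀ ((one_lt_inv₀ (zero_lt_iff.mpr hlam0)).mpr hζv) two_ne_zero
    rw [hc, Valuation.map_sub_eq_of_lt_left _ (by rw [h₂]; exact h1)]
    exact h1
  obtain ⟨d, hd⟩ := IsAlgClosed.exists_pow_nat_eq (c ^ 2 - 4 * W.a₄) (n := 2) (by norm_num)
  have key : ∃ x : K, x ^ 2 - c * x + W.a₄ = 0 ∧ 1 < A.valuation x := by
    by_contra hcon0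
    have hcon : ∀ x : K, x ^ 2 - c * x + W.a₄ = 0 → A.valuation x ≤ 1 :=
      fun x hx => not_lt.mp fun hlt => hcon0 ⟨x, hx, hlt⟩
    have e1 : ((c + d) / 2) ^ 2 - c * ((c + d) / 2) + W.a₄ = 0 := by
      field_simp
      linear_combination hd
    have e2 : ((c - d) / 2) ^ 2 - c * ((c - d) / 2) + W.a₄ = 0 := by
      field_simp
      linear_combination hd
    have l1 := hcon _ e1
    have l2 := hcon _ e2
    have e3 : c = (c + d) / 2 + (c - d) / 2 := by
      field_simp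
      ring
    have l3 : A.valuation c ≤ 1 := by
      rw [e3]
      exact (A.valuation.map_add _ _).trans (max_le l1 l2)
    exact absurd hcv (not_lt.mpr l3)
  obtain ⟨x, hx, hxv⟩ := key
  have hxA : x ∉ A := by
    rw [← A.valuation_le_one_iff]
    exact not_le.mpr hxv
  have hx0 : x ≠ 0 := fun h => hxA (h ▸ A.zero_mem)
  have hy0 : x / z₀ ≠ 0 := div_ne_zero hx0 hz₀0
  have e : (x / z₀) ^ 2 = x ^ 3 + W.a₂ * x ^ 2 + W.a₄ * x := by
    have h1 : (x / z₀) ^ 2 = x ^ 2 * (c + W.a₂) := by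
      rw [hc, div_eq_mul_inv]
      ring
    rw [h1]
    linear_combination (-x) * hx
  have hz : x / (x / z₀) = z₀ := by
    field_simp
  refine ⟨x, x / z₀, nonsingular_of_y_ne_zero hW h2 e hy0, hxA, ?_, ?_⟩
  · show (1 - β * (x / (x / z₀))) / (1 + β * (x / (x / z₀))) = ζ
    have hβz : β * ((1 - ζ) / (β * (1 + ζ))) = (1 - ζ) / (1 + ζ) := by
      field_simp
    have h3 : 1 - (1 - ζ) / (1 + ζ) = 2 * ζ / (1 + ζ) := by
      field_simp
      ring
    have h4 : 1 + (1 - ζ) / (1 + ζ) = 2 / (1 + ζ) := by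
      field_simp
      ring
    rw [hz, hz₀, hβz, h3, h4, div_div_div_cancel_right₀ h1ζ0, mul_div_cancel_left₀ ζ h2]
  · rw [hz, hz₀v]

/-- **(E0), local form.**  The kernel of reduction of `y² = x³ + a x² + b x`
(`v a = 1 = v 2`, `v b ≤ v p < 1`) contains a non-zero `p`-torsion point. -/
theorem exists_torsion_inKer (hW : IsLeg W) (h2v : A.valuation (2 : K) = 1)
    (h₂ : A.valuation W.a₂ = 1) {p : ℕ} (hp : 0 < p) (hp0 : (p : K) ≠ 0)
    (hpv : A.valuation (p : K) < 1) (h₄ : A.valuation W.a₄ ≤ A.valuation (p : K))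
    (hΦ : (W.Φ (p : ℤ)).coeff (p ^ 2 - 1) ∈ A)
    {ζ : K} (hζ : ζ ^ p = 1) (hζ1 : ζ ≠ 1) (hζv : A.valuation (ζ - 1) < 1) :
    ∃ R : W.Point, R ≠ 0 ∧ p • R = 0 ∧ InKer A R := by
  obtain ⟨β, hβ⟩ := IsAlgClosed.exists_pow_nat_eq W.a₂ (n := 2) (by norm_num)
  have ha₂A : W.a₂ ∈ A := (A.valuation_le_one_iff _).mp h₂.le
  have ha₄A : W.a₄ ∈ A := (A.valuation_le_one_iff _).mp (h₄.trans hpv.le)
  have h2 : (2 : K) ≠ 0 := by
    intro h0
    rw [h0, map_zero] at h2v
    exact zero_ne_one h2v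
  have hβv : A.valuation β = 1 := by
    have h := congrArg A.valuation hβ
    rw [map_pow, h₂] at h
    exact (pow_eq_one_iff_of_nonneg zero_le two_ne_zero).mp h
  obtain ⟨x, y, hxy, hxA, hu, hzT⟩ := exists_unit_point A hW h2v h₂ hβ hζ1 hζv
  have hT : InKer A (Point.some x y hxy) := hxA
  have eT := equation_of_special hW.a₁ hW.a₃ hW.a₆ hxy
  obtain ⟨hS, -⟩ := ker_nsmul A hW.a₁ hW.a₃ hW.a₆ ha₂A ha₄A hT p
  obtain ⟨c, hc, hun⟩ := u_nsmul A hW.a₁ hW.a₃ hW.a₆ ha₂A ha₄A hβ hT p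
  rw [hu, hζ] at hun
  -- notation for the valuations
  have hlam0 : A.valuation (ζ - 1) ≠ 0 := (Valuation.ne_zero_iff _).mpr (sub_ne_zero.mpr hζ1)
  have hπ0 : A.valuation (p : K) ≠ 0 := (Valuation.ne_zero_iff _).mpr hp0
  have f1 : A.valuation x * A.valuation (ζ - 1) ^ 2 = 1 := by
    rw [← hzT]
    exact val_x_mul_val_z_sq A ha₂A ha₄A eT hxA
  rcases hSdef : p • Point.some x y hxy with _ | ⟨xS, yS, hS'⟩
  · exact ⟨Point.some x y hxy, Point.some_ne_zero hxy, hSdef, hT⟩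
  · rw [hSdef] at hS hun
    have hxSA : xS ∉ A := hS
    have eS := equation_of_special hW.a₁ hW.a₃ hW.a₆ hS'
    have f2 : A.valuation xS * A.valuation (xS / yS) ^ 2 = 1 :=
      val_x_mul_val_z_sq A ha₂A ha₄A eS hxSA
    have hsub := uCoord_sub_one A hW.a₁ hW.a₃ hW.a₆ ha₂A ha₄A hβ (P := Point.some xS yS hS') hS
    have hunits := uCoord_units A hW.a₁ hW.a₃ hW.a₆ ha₂A ha₄A hβ (P := Point.some xS yS hS') hS
    have f3 : A.valuation (xS / yS) ≤ A.valuation (p : K) * A.valuation (ζ - 1) ^ 2 := by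
      have h1 := congrArg A.valuation hsub
      rw [map_mul, hunits.2.1, mul_one, map_mul, map_mul, Valuation.map_neg, h2v, hβv, one_mul,
        one_mul] at h1
      have h3 : A.valuation (zCoord (Point.some xS yS hS')) = A.valuation (xS / yS) := rfl
      have h4 : A.valuation (zCoord (Point.some x y hxy)) = A.valuation (ζ - 1) := hzT
      rw [← h3, ← h1, hun, map_mul, map_mul, map_pow, h4]
      calc A.valuation W.a₄ * A.valuation (ζ - 1) ^ 2 * A.valuation c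
          ≤ A.valuation W.a₄ * A.valuation (ζ - 1) ^ 2 * 1 :=
            mul_le_mul' le_rfl ((A.valuation_le_one_iff c).mpr hc)
        _ = A.valuation W.a₄ * A.valuation (ζ - 1) ^ 2 := mul_one _
        _ ≤ A.valuation (p : K) * A.valuation (ζ - 1) ^ 2 := mul_le_mul' h₄ le_rfl
    have hlam2 : A.valuation (ζ - 1) ^ 2 < 1 := pow_lt_one₀ zero_le hζv two_ne_zero
    have hπ2 : 0 < A.valuation (p : K) ^ 2 := pow_pos (zero_lt_iff.mpr hπ0) 2
    have hlam2pos : 0 < A.valuation (ζ - 1) ^ 2 := pow_pos (zero_lt_iff.mpr hlam0) 2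
    have f3' : A.valuation (xS / yS) ^ 2 ≤
        A.valuation (p : K) ^ 2 * A.valuation (ζ - 1) ^ 2 * A.valuation (ζ - 1) ^ 2 := by
      have h := pow_le_pow_left₀ zero_le f3 2
      calc A.valuation (xS / yS) ^ 2 ≤ (A.valuation (p : K) * A.valuation (ζ - 1) ^ 2) ^ 2 := h
        _ = A.valuation (p : K) ^ 2 * A.valuation (ζ - 1) ^ 2 * A.valuation (ζ - 1) ^ 2 := by
          rw [mul_pow, sq (A.valuation (ζ - 1) ^ 2), mul_assoc]
    -- depth of `S`
    have hM : 1 < A.valuation (p : K) ^ 2 * A.valuation xS := by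
      by_contra hcon
      have h1 : A.valuation (p : K) ^ 2 * A.valuation xS * A.valuation (xS / yS) ^ 2
          ≤ 1 * A.valuation (xS / yS) ^ 2 := mul_le_mul' (not_lt.mp hcon) le_rfl
      rw [mul_assoc, f2, mul_one, one_mul] at h1
      have h2' : A.valuation (p : K) ^ 2 * A.valuation (ζ - 1) ^ 2 * A.valuation (ζ - 1) ^ 2
          < A.valuation (p : K) ^ 2 := by
        calc A.valuation (p : K) ^ 2 * A.valuation (ζ - 1) ^ 2 * A.valuation (ζ - 1) ^ 2
            ≤ A.valuation (p : K) ^ 2 * A.valuation (ζ - 1) ^ 2 * 1 :=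
              mul_le_mul' le_rfl hlam2.le
          _ = A.valuation (p : K) ^ 2 * A.valuation (ζ - 1) ^ 2 := mul_one _
          _ < A.valuation (p : K) ^ 2 * 1 := mul_lt_mul_of_pos_left hlam2 hπ2
          _ = A.valuation (p : K) ^ 2 := mul_one _
      exact absurd (lt_of_le_of_lt (h1.trans f3') h2') (lt_irrefl _)
    obtain ⟨X, Y, hXY, hpR, hXle⟩ := exists_deep_division A hW h2 ha₂A ha₄A hp hΦ hS' hM
    have hXA : X ∉ A := by
      rw [← A.valuation_le_one_iff]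
      exact not_le.mpr (lt_of_lt_of_le hM hXle)
    have hR' : InKer A (Point.some X Y hXY) := hXA
    refine ⟨Point.some x y hxy - Point.some X Y hXY, ?_, ?_, ?_⟩
    · intro h0
      have h1 : Point.some x y hxy = Point.some X Y hXY := sub_eq_zero.mp h0
      simp only [Point.some.injEq] at h1
      rw [← h1.1] at hXle
      -- `π² λ² ≤ zS² ≤ π² λ⁴ < π² λ²`
      have h3 : A.valuation (p : K) ^ 2 * A.valuation xS * A.valuation (ζ - 1) ^ 2
          ≤ A.valuation x * A.valuation (ζ - 1) ^ 2 := mul_le_mul' hXle le_rfl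
      rw [f1] at h3
      have h4 : A.valuation (p : K) ^ 2 * A.valuation xS * A.valuation (ζ - 1) ^ 2
          * A.valuation (xS / yS) ^ 2 ≤ 1 * A.valuation (xS / yS) ^ 2 := mul_le_mul' h3 le_rfl
      have h5 : A.valuation (p : K) ^ 2 * A.valuation xS * A.valuation (ζ - 1) ^ 2
          * A.valuation (xS / yS) ^ 2 = A.valuation (p : K) ^ 2 * A.valuation (ζ - 1) ^ 2 := by
        calc A.valuation (p : K) ^ 2 * A.valuation xS * A.valuation (ζ - 1) ^ 2
              * A.valuation (xS / yS) ^ 2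
            = A.valuation (p : K) ^ 2 * A.valuation (ζ - 1) ^ 2
              * (A.valuation xS * A.valuation (xS / yS) ^ 2) := by
                rw [mul_assoc, mul_mul_mul_comm]
          _ = A.valuation (p : K) ^ 2 * A.valuation (ζ - 1) ^ 2 := by rw [f2, mul_one]
      rw [h5, one_mul] at h4
      have h6 : A.valuation (p : K) ^ 2 * A.valuation (ζ - 1) ^ 2 * A.valuation (ζ - 1) ^ 2
          < A.valuation (p : K) ^ 2 * A.valuation (ζ - 1) ^ 2 := by
        calc A.valuation (p : K) ^ 2 * A.valuation (ζ - 1) ^ 2 * A.valuation (ζ - 1) ^ 2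
            < A.valuation (p : K) ^ 2 * A.valuation (ζ - 1) ^ 2 * 1 :=
              mul_lt_mul_of_pos_left hlam2 (mul_pos hπ2 hlam2pos)
          _ = A.valuation (p : K) ^ 2 * A.valuation (ζ - 1) ^ 2 := mul_one _
      exact absurd (lt_of_le_of_lt (h4.trans f3') h6) (lt_irrefl _)
    · rw [smul_sub, hSdef, hpR, sub_self]
    · rw [sub_eq_add_neg]
      exact inKer_add A hW.a₁ hW.a₃ hW.a₆ ha₂A ha₄A hT (inKer_neg A hR')

end Local

section IntModel

local notation "Qbar" => AlgebraicClosure ℚ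

open Fermat.Agent.S13.LocP

/-- **(E0) for integer Legendre models.**  `y² = x³ + a x² + b x` with `a, b ∈ ℤ`, `p ∤ a`,
`p ∣ b`, `p` an odd prime, `A` a valuation subring of `AlgebraicClosure ℚ` above `p`: the kernel
of reduction contains a non-zero `p`-torsion point. -/
theorem exists_torsion_inE1_int (Wℤ : WeierstrassCurve ℤ)
    (hW : IsLeg (Wℤ.map (Int.castRingHom ℚ) : Affine ℚ)) {p : ℕ} (hp : p.Prime) (hp2 : p ≠ 2)
    (h₂ : ¬ (p : ℤ) ∣ Wℤ.a₂) (h₄ : (p : ℤ) ∣ Wℤ.a₄)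
    (A : ValuationSubring Qbar) (hA : A.LiesOverPrime p) :
    ∃ R : ((Wℤ.map (Int.castRingHom ℚ) : Affine ℚ)⁄Qbar).Point,
      R ≠ 0 ∧ p • R = 0 ∧ InE1 A.valuation R := by
  classical
  have hpA : A.valuation ((p : ℕ) : Qbar) < 1 := by
    have : ((p : ℕ) : Qbar) ∈ A.nonunits := hA
    rwa [ValuationSubring.mem_nonunits_iff] at this
  have h2v := val_two_eq_one hp hp2 A hpA
  have hWK : IsLeg ((Wℤ.map (Int.castRingHom ℚ) : Affine ℚ)⁄Qbar) :=
    LocalMult.isLeg_baseChange _ hW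
  have ha : A.valuation ((Wℤ.map (Int.castRingHom ℚ) : Affine ℚ)⁄Qbar).a₂ = 1 := by
    show A.valuation (algebraMap ℚ Qbar (Wℤ.map (Int.castRingHom ℚ) : Affine ℚ).a₂) = 1
    rw [algebraMap_map_a₂]
    exact val_intCast_eq_one A hp hpA h₂
  have hb : A.valuation ((Wℤ.map (Int.castRingHom ℚ) : Affine ℚ)⁄Qbar).a₄
      ≤ A.valuation ((p : ℕ) : Qbar) := by
    show A.valuation (algebraMap ℚ Qbar (Wℤ.map (Int.castRingHom ℚ) : Affine ℚ).a₄) ≤ _
    rw [algebraMap_map_a₄]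
    obtain ⟨m, hm⟩ := h₄
    rw [hm, Int.cast_mul, map_mul, Int.cast_natCast]
    calc A.valuation ((p : ℕ) : Qbar) * A.valuation (m : Qbar)
        ≤ A.valuation ((p : ℕ) : Qbar) * 1 := mul_le_mul' le_rfl (val_intCast_le_one A m)
      _ = A.valuation ((p : ℕ) : Qbar) := mul_one _
  have hΦ : (((Wℤ.map (Int.castRingHom ℚ) : Affine ℚ)⁄Qbar).Φ (p : ℤ)).coeff (p ^ 2 - 1) ∈ A := by
    rw [baseChange_map_int, WeierstrassCurve.map_Φ, Polynomial.coeff_map, eq_intCast]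
    exact (A.valuation_le_one_iff _).mp (val_intCast_le_one A _)
  have : Fact p.Prime := ⟨hp⟩
  have : NeZero ((p : ℕ) : ℚ) := ⟨Nat.cast_ne_zero.mpr hp.ne_zero⟩
  obtain ⟨ζ, hζprim⟩ := HasEnoughRootsOfUnity.exists_primitiveRoot Qbar p
  have hζ : ζ ^ p = 1 := hζprim.pow_eq_one
  have hζ1 : ζ ≠ 1 := hζprim.ne_one hp.one_lt
  have hζv : A.valuation (ζ - 1) < 1 := by
    have h := Fermat.Agent.PT.G.sub_one_mem_nonunits_of_pow_eq_one p A hA hζ
    rwa [ValuationSubring.mem_nonunits_iff] at h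
  obtain ⟨R, hR0, hpR, hRk⟩ := exists_torsion_inKer A hWK h2v ha hp.pos
    (Nat.cast_ne_zero.mpr hp.ne_zero) hpA hb hΦ hζ hζ1 hζv
  refine ⟨R, hR0, hpR, ?_⟩
  rcases R with _ | ⟨x, y, h⟩
  · exact trivial
  · show 1 < A.valuation x
    have hx : x ∉ A := hRk
    rw [← A.valuation_le_one_iff] at hx
    exact not_le.mp hx

/-- **(E0)** in the hypothesis shape of the `(E-ST)` assembly: every integer Legendre model with
`p ∤ a₂`, `p ∣ a₄` (in particular the model of `Deep.frey_mult_model`) has a non-zero `p`-torsion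
point in the kernel of reduction. -/
theorem e0 {p : ℕ} (hp : p.Prime) (hp2 : p ≠ 2) (A : ValuationSubring Qbar)
    (hA : A.LiesOverPrime p) :
    ∀ (Wℤ : WeierstrassCurve ℤ) (t : ℤ), IsLeg (Wℤ.map (Int.castRingHom ℚ) : Affine ℚ) →
      ¬ (p : ℤ) ∣ Wℤ.a₂ → (p : ℤ) ∣ Wℤ.a₄ → Wℤ.a₄ ≠ 0 → Wℤ.a₄ = t ^ p →
      ∃ R : ((Wℤ.map (Int.castRingHom ℚ) : Affine ℚ)⁄Qbar).Point,
        R ≠ 0 ∧ p • R = 0 ∧ InE1 A.valuation R :=
  fun Wℤ _ hW h₂ h₄ _ _ => exists_torsion_inE1_int Wℤ hW hp hp2 h₂ h₄ A hA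

/-- **(E0) for a Frey package**, literally the hypothesis `hE0` of the `(E-ST)` assembly. -/
theorem e0_frey (P : FreyPackage) (A : ValuationSubring Qbar) (hA : A.LiesOverPrime P.p) :
    ∀ (Wℤ : WeierstrassCurve ℤ) (t : ℤ), IsLeg (Wℤ.map (Int.castRingHom ℚ) : Affine ℚ) →
      ¬ (P.p : ℤ) ∣ Wℤ.a₂ → (P.p : ℤ) ∣ Wℤ.a₄ → Wℤ.a₄ ≠ 0 → Wℤ.a₄ = t ^ P.p →
      ∃ R : ((Wℤ.map (Int.castRingHom ℚ) : Affine ℚ)⁄Qbar).Point,
        R ≠ 0 ∧ P.p • R = 0 ∧ InE1 A.valuation R :=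
  e0 P.pp (by have := P.hp5; omega) A hA

end IntModel

end Fermat.Agent.TR.ESide.E0
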