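/-
TR / E-side of S44 (helper5): `(E-ST)`, the `ω`-line of the Frey curve at `p ∣ a b c`, in the
literal shape of the top seam (`Fermat.Agent.TR.Top.TREst`, stated here without importing it).

`L := E[p] ∩ E₁(A)` (kernel of reduction of the Legendre model), transported to the Frey curve:

* `Nat.card L = p` : `≥` by `(E0)` (`E0Div`), `≤` by `ST.card_le` (unit coordinate);
* `(σ - 1) E[p] ⊆ L` for `σ` in the inertia group : `S13.LocP.sub_inE1_int_mult`;
* inertia acts on `L` through the cyclotomic character : `ST.map_eq_nsmul`.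
-/
import Fermat.Agent.TR.ESide.E0Div
import Fermat.Agent.TR.ESide.ST.Omega
import Fermat.Agent.TR.FreyPeu.Local
import Fermat.Agent.S13.Assembly
import Fermat.Agent.S05.Inertia

set_option autoImplicit false

namespace Fermat.Agent.TR.ESide.Est

open WeierstrassCurve WeierstrassCurve.Affine
open Fermat.Agent.S05 Fermat.Agent.S05.E1 Fermat.Agent.S13.LocP Fermat.Agent.EC
open Fermat.Agent.TR.FreyPeu

local notation "Qbar" => AlgebraicClosure ℚ

/-- The discriminant of an integer Legendre model with `p ∤ a₂`, `p ∣ a₄ ≠ 0` does not vanish. -/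
theorem leg_int_Δ_ne_zero (Wℤ : WeierstrassCurve ℤ)
    (hW : IsLeg (Wℤ.map (Int.castRingHom ℚ) : Affine ℚ)) {p : ℕ} (hp : p.Prime)
    (h₂ : ¬ (p : ℤ) ∣ Wℤ.a₂) (h₄ : (p : ℤ) ∣ Wℤ.a₄) (h₄0 : Wℤ.a₄ ≠ 0) :
    (Wℤ.map (Int.castRingHom ℚ) : Affine ℚ).Δ ≠ 0 := by
  rw [Deep.leg_Δ_eq hW]
  have e2 : (Wℤ.map (Int.castRingHom ℚ) : Affine ℚ).a₂ = ((Wℤ.a₂ : ℤ) : ℚ) := by
    show Int.castRingHom ℚ Wℤ.a₂ = _
    rw [eq_intCast]
  have e4 : (Wℤ.map (Int.castRingHom ℚ) : Affine ℚ).a₄ = ((Wℤ.a₄ : ℤ) : ℚ) := by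
    show Int.castRingHom ℚ Wℤ.a₄ = _
    rw [eq_intCast]
  rw [e2, e4]
  have hne : Wℤ.a₂ ^ 2 - 4 * Wℤ.a₄ ≠ 0 := by
    intro h0
    have hqi : Prime (p : ℤ) := Nat.prime_iff_prime_int.mp hp
    have h1 : (p : ℤ) ∣ Wℤ.a₂ ^ 2 := by
      have : Wℤ.a₂ ^ 2 = 4 * Wℤ.a₄ := by linear_combination h0
      rw [this]
      exact Dvd.dvd.mul_left h₄ _
    exact h₂ (hqi.dvd_of_dvd_pow h1)
  have h16 : ((16 * Wℤ.a₄ ^ 2 * (Wℤ.a₂ ^ 2 - 4 * Wℤ.a₄) : ℤ) : ℚ) ≠ 0 :=
    Int.cast_ne_zero.mpr (mul_ne_zero (mul_ne_zero (by norm_num) (pow_ne_zero 2 h₄0)) hne)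
  intro h0
  apply h16
  push_cast
  exact h0

/-- **`(E-ST)` for the Frey curve at `p ∣ a b c`**: a subgroup `L` of order `p` of `E[p]` such
that the inertia group at `p` acts trivially on `E[p] / L` and through the mod `p` cyclotomic
character on `L`. -/
theorem frey_est (P : FreyPackage) (hpabc : (P.p : ℤ) ∣ P.a * P.b * P.c)
    (A : ValuationSubring Qbar) (hA : A.LiesOverPrime P.p) :
    ∃ L : AddSubgroup (FreyV P), Nat.card L = P.p ∧
      (∀ σ ∈ A.inertiaSubgroupIn ℚ, ∀ x : FreyV P, σ • x - x ∈ L) ∧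
      (∀ σ ∈ A.inertiaSubgroupIn ℚ, ∀ a : ℕ, (∀ μ : Qbar, μ ^ P.p = 1 → σ μ = μ ^ a) →
        ∀ x ∈ L, σ • x = a • x) := by
  classical
  obtain ⟨Wℤ, r₀, t, x₀, hW, h₂, h₄, h₆, hna₂, hpa₄, ha₄0, ht, -, -⟩ :=
    Deep.frey_mult_model P hpabc
  obtain ⟨φ, hφinj, hφσ⟩ := exists_equivariant_transfer (K := Qbar) (P.freyCurve : Affine ℚ)
    (Wℤ.map (Int.castRingHom ℚ) : Affine ℚ) r₀ rfl rfl rfl hW h₂ h₄ h₆ two_ne_zero
  have hp : P.p.Prime := P.pp
  have hp2 : P.p ≠ 2 := by have := P.hp5; omega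
  have hpA : A.valuation ((P.p : ℕ) : Qbar) < 1 := by
    have : ((P.p : ℕ) : Qbar) ∈ A.nonunits := hA
    rwa [ValuationSubring.mem_nonunits_iff] at this
  have h2v := val_two_eq_one hp hp2 A hpA
  have hWK : IsLeg ((Wℤ.map (Int.castRingHom ℚ) : Affine ℚ)⁄Qbar) :=
    LocalMult.isLeg_baseChange _ hW
  have ha2 : A.valuation ((Wℤ.map (Int.castRingHom ℚ) : Affine ℚ)⁄Qbar).a₂ = 1 := by
    show A.valuation (algebraMap ℚ Qbar (Wℤ.map (Int.castRingHom ℚ) : Affine ℚ).a₂) = 1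
    rw [algebraMap_map_a₂]
    exact val_intCast_eq_one A hp hpA hna₂
  have hpt : (P.p : ℤ) ∣ t := by
    have hqi : Prime (P.p : ℤ) := Nat.prime_iff_prime_int.mp hp
    rw [ht] at hpa₄
    exact hqi.dvd_of_dvd_pow hpa₄
  have htv : A.valuation ((t : ℤ) : Qbar) ≤ A.valuation ((P.p : ℕ) : Qbar) := by
    obtain ⟨m, rfl⟩ := hpt
    rw [Int.cast_mul, map_mul, Int.cast_natCast]
    calc A.valuation ((P.p : ℕ) : Qbar) * A.valuation (m : Qbar)
        ≤ A.valuation ((P.p : ℕ) : Qbar) * 1 := mul_le_mul' le_rfl (val_intCast_le_one A m)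
      _ = A.valuation ((P.p : ℕ) : Qbar) := mul_one _
  have hb : A.valuation ((Wℤ.map (Int.castRingHom ℚ) : Affine ℚ)⁄Qbar).a₄
      ≤ A.valuation ((P.p : ℕ) : Qbar) ^ P.p := by
    show A.valuation (algebraMap ℚ Qbar (Wℤ.map (Int.castRingHom ℚ) : Affine ℚ).a₄) ≤ _
    rw [algebraMap_map_a₄, ht, Int.cast_pow, map_pow]
    exact pow_le_pow_left₀ zero_le htv _
  have hb1 : A.valuation ((Wℤ.map (Int.castRingHom ℚ) : Affine ℚ)⁄Qbar).a₄ ≤ 1 :=
    hb.trans (pow_le_one₀ zero_le hpA.le)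
  obtain ⟨β, hβ⟩ := IsAlgClosed.exists_pow_nat_eq
    ((Wℤ.map (Int.castRingHom ℚ) : Affine ℚ)⁄Qbar).a₂ (n := 2) (by norm_num)
  have hβv : A.valuation β = 1 := by
    have h := congrArg A.valuation hβ
    rw [map_pow, ha2] at h
    exact (pow_eq_one_iff_of_nonneg zero_le two_ne_zero).mp h
  have H : ST.Hyp A ((Wℤ.map (Int.castRingHom ℚ) : Affine ℚ)⁄Qbar) β P.p :=
    { leg := hWK
      h₂ := (A.valuation_le_one_iff _).mp ha2.le
      h₄ := (A.valuation_le_one_iff _).mp hb1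
      v2 := h2v
      hβ := hβ
      vβ := hβv
      hp := hp
      vp := hpA
      p0 := Nat.cast_ne_zero.mpr hp.ne_zero
      hbp := hb }
  have hpφ : ∀ x : FreyV P, P.p • φ x.1 = 0 := fun x => by
    rw [← map_nsmul, freyV_nsmul_coe, map_zero]
  -- the line
  let L : AddSubgroup (FreyV P) :=
    { carrier := {x | InE1 A.valuation (φ x.1)}
      zero_mem' := by
        show InE1 A.valuation (φ ((0 : FreyV P) : _))
        rw [Submodule.coe_zero, map_zero]
        exact trivial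
      add_mem' := by
        intro x y hx hy
        show InE1 A.valuation (φ ((x + y : FreyV P) : _))
        rw [Submodule.coe_add, map_add]
        exact inE1_add A.valuation hWK ha2.le hb1 hx hy
      neg_mem' := by
        intro x hx
        show InE1 A.valuation (φ ((-x : FreyV P) : _))
        rw [Submodule.coe_neg, map_neg]
        exact inE1_neg A.valuation hx }
  have hmemL : ∀ x : FreyV P, x ∈ L ↔ InE1 A.valuation (φ x.1) := fun x => Iff.rfl
  -- cardinalities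
  have hΔE := Fermat.Agent.S13.Assembly.freyCurve_Δ_ne_zero P
  have hΔW := leg_int_Δ_ne_zero Wℤ hW hp hna₂ hpa₄ ha₄0
  have hcardE : Nat.card (FreyV P) = P.p ^ 2 :=
    Fermat.Agent.Lib.ECBiquad.card_torsionBy_rat P.freyCurve hΔE hp.ne_zero
  have hcardW : Nat.card (Submodule.torsionBy ℤ
      ((Wℤ.map (Int.castRingHom ℚ) : Affine ℚ)⁄Qbar).Point (P.p : ℤ)) = P.p ^ 2 :=
    Fermat.Agent.Lib.ECBiquad.card_torsionBy_rat (Wℤ.map (Int.castRingHom ℚ)) hΔW hp.ne_zero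
  have hfinE : Finite (FreyV P) :=
    Nat.finite_of_card_ne_zero (by rw [hcardE]; exact pow_ne_zero 2 hp.ne_zero)
  have hfinW : Finite (Submodule.torsionBy ℤ
      ((Wℤ.map (Int.castRingHom ℚ) : Affine ℚ)⁄Qbar).Point (P.p : ℤ)) :=
    Nat.finite_of_card_ne_zero (by rw [hcardW]; exact pow_ne_zero 2 hp.ne_zero)
  obtain ⟨ψ, hψ⟩ : ∃ ψ : FreyV P → Submodule.torsionBy ℤ
      ((Wℤ.map (Int.castRingHom ℚ) : Affine ℚ)⁄Qbar).Point (P.p : ℤ),
      ∀ x, (ψ x).1 = φ x.1 :=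
    ⟨fun x => ⟨φ x.1, by rw [Submodule.mem_torsionBy_iff, natCast_zsmul]; exact hpφ x⟩,
      fun _ => rfl⟩
  have hψinj : Function.Injective ψ := fun x y h =>
    Subtype.ext (hφinj (by rw [← hψ x, ← hψ y, h]))
  have hψsurj : Function.Surjective ψ :=
    (hψinj.bijective_of_nat_card_le (by rw [hcardE, hcardW])).2
  have hLbot : L ≠ ⊥ := by
    obtain ⟨R, hR0, hpR, hRE⟩ := E0.exists_torsion_inE1_int Wℤ hW hp hp2 hna₂ hpa₄ A hA
    obtain ⟨x, hx⟩ := hψsurj ⟨R, by rw [Submodule.mem_torsionBy_iff, natCast_zsmul]; exact hpR⟩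
    have hxR : φ x.1 = R := by rw [← hψ x, hx]
    have hxL : x ∈ L := by
      rw [hmemL, hxR]
      exact hRE
    intro hbot
    rw [hbot, AddSubgroup.mem_bot] at hxL
    rw [hxL, Submodule.coe_zero, map_zero] at hxR
    exact hR0 hxR.symm
  have hle : Nat.card L ≤ P.p := by
    have : Fintype L := Fintype.ofFinite L
    have h := ST.card_le H ((Finset.univ : Finset L).image (fun x : L => φ x.1.1)) (by
      intro Q hQ
      obtain ⟨x, -, rfl⟩ := Finset.mem_image.mp hQ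
      exact ⟨(inKer_iff_inE1_val A).mpr x.2, hpφ x.1⟩)
    rw [Finset.card_image_of_injective _
      (fun x y h => Subtype.ext (Subtype.ext (hφinj h))), Finset.card_univ,
      ← Nat.card_eq_fintype_card] at h
    exact h
  have hcardL : Nat.card L = P.p := by
    have hdvd : Nat.card L ∣ P.p ^ 2 := hcardE ▸ AddSubgroup.card_addSubgroup_dvd_card L
    obtain ⟨k, hk, hkeq⟩ := (Nat.dvd_prime_pow hp).mp hdvd
    have hk0 : k ≠ 0 := by
      rintro rfl
      rw [pow_zero] at hkeq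
      exact hLbot (AddSubgroup.card_eq_one.mp hkeq)
    have hk1 : k ≤ 1 := by
      by_contra hcon
      have hk2 : k = 2 := by omega
      rw [hkeq, hk2] at hle
      have := hp.one_lt
      nlinarith
    have hk' : k = 1 := by omega
    rw [hkeq, hk', pow_one]
  refine ⟨L, hcardL, ?_, ?_⟩
  · intro σ hσ x
    rw [hmemL, Submodule.coe_sub, map_sub, freyV_smul_coe, hφσ]
    have hQ : (P.p : ℤ) • φ x.1 = 0 := by rw [natCast_zsmul]; exact hpφ x
    have h := sub_inE1_int_mult hW hp hp2 hna₂ hpa₄ ha₄0 ht A hA σ hσ (φ x.1) hQ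
    have h' := inE1_neg A.valuation h
    rwa [neg_sub] at h'
  · intro σ hσ a ha x hx
    have hspec : ∀ y : Qbar, A.valuation y ≤ 1 → A.valuation (σ y - y) < 1 :=
      fun y hy => inertia_spec A σ hσ y hy
    have hσβ : σ β = β := by
      refine fix_of_sq A σ hspec h2v hβv ?_
      rw [hβ]
      exact σ.commutes _
    have hk : InKer A (φ x.1) := (inKer_iff_inE1_val A).mpr ((hmemL x).mp hx)
    have h := ST.map_eq_nsmul (Wℤ.map (Int.castRingHom ℚ) : Affine ℚ) H σ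
      (map_lt_one_of_spec A σ hspec) hσβ a ha hk (hpφ x)
    apply Subtype.ext
    apply hφinj
    rw [freyV_smul_coe, hφσ, h, ← map_nsmul]
    rfl

end Fermat.Agent.TR.ESide.Est
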