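/-
TR / E-side of S44 (helper5): row TR-E2 (E-DEEP), the literal seam statement of the TR
architecture.

`frey_deep`: for a Frey package with `p ∣ a b c`, a valuation subring `A` of `AlgebraicClosure ℚ`
above `p` and an automorphism `σ` which moves every integral element of `K0(E[p])` (the elements
fixed by all inertia elements acting trivially on `E[p]`) by at most `ρ`, where
`ρ ^ (p-1) < v p`: `σ` fixes `E[p]` pointwise.
-/
import Fermat.Agent.TR.ESide.FreyDeep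

set_option autoImplicit false

namespace Fermat.Agent.TR.ESide.Deep

open WeierstrassCurve WeierstrassCurve.Affine
open Fermat.Agent.EC

local notation "Qbar" => AlgebraicClosure ℚ

/-- The inertia elements acting trivially on the `p`-torsion of the Frey curve. -/
def freyTrivInertia (P : FreyPackage) (A : ValuationSubring Qbar) :
    Subgroup (Qbar ≃ₐ[ℚ] Qbar) where
  carrier := {τ | τ ∈ A.inertiaSubgroupIn ℚ ∧
    ∀ Q : ((P.freyCurve : Affine ℚ)⁄Qbar).Point, P.p • Q = 0 →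
      Point.map (W' := P.freyCurve) τ.toAlgHom Q = Q}
  one_mem' := ⟨Subgroup.one_mem _, fun Q _ => one_smul (Qbar ≃ₐ[ℚ] Qbar) Q⟩
  mul_mem' := by
    rintro τ₁ τ₂ ⟨h₁, h₁'⟩ ⟨h₂, h₂'⟩
    refine ⟨Subgroup.mul_mem _ h₁ h₂, fun Q hQ => ?_⟩
    have e : Point.map (W' := P.freyCurve) (τ₁ * τ₂).toAlgHom Q = τ₁ • (τ₂ • Q) :=
      mul_smul τ₁ τ₂ Q
    have e₂ : τ₂ • Q = Q := h₂' Q hQ
    have e₁ : τ₁ • Q = Q := h₁' Q hQ
    rw [e, e₂, e₁]
  inv_mem' := by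
    rintro τ ⟨h₁, h₁'⟩
    refine ⟨Subgroup.inv_mem _ h₁, fun Q hQ => ?_⟩
    have e : τ • Q = Q := h₁' Q hQ
    show τ⁻¹ • Q = Q
    rw [inv_smul_eq_iff, e]

theorem mem_freyTrivInertia (P : FreyPackage) (A : ValuationSubring Qbar)
    (τ : Qbar ≃ₐ[ℚ] Qbar) :
    τ ∈ freyTrivInertia P A ↔ τ ∈ A.inertiaSubgroupIn ℚ ∧
      ∀ Q : ((P.freyCurve : Affine ℚ)⁄Qbar).Point, P.p • Q = 0 →
        Point.map (W' := P.freyCurve) τ.toAlgHom Q = Q := Iff.rfl

/-- **Row TR-E2 (E-DEEP).**  A deep `σ` fixes `E[p]` of the Frey curve at `p ∣ a b c`. -/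
theorem frey_deep (P : FreyPackage) (hpabc : (P.p : ℤ) ∣ P.a * P.b * P.c)
    (A : ValuationSubring Qbar) (hA : A.LiesOverPrime P.p) (σ : Qbar ≃ₐ[ℚ] Qbar)
    (ρ : A.ValueGroup) (hρ : ρ ^ (P.p - 1) < A.valuation ((P.p : ℕ) : Qbar))
    (hσ : ∀ c : Qbar, c ∈ A →
      (∀ τ ∈ A.inertiaSubgroupIn ℚ,
        (∀ Q : ((P.freyCurve : Affine ℚ)⁄Qbar).Point, P.p • Q = 0 →
          Point.map (W' := P.freyCurve) τ.toAlgHom Q = Q) → τ c = c) →
      A.valuation (σ c - c) ≤ ρ)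
    (Q : ((P.freyCurve : Affine ℚ)⁄Qbar).Point) (hQ : P.p • Q = 0) :
    Point.map (W' := P.freyCurve) σ.toAlgHom Q = Q := by
  have h := frey_fixed_of_close_subgroup P hpabc A hA σ (freyTrivInertia P A)
    ⟨Q, mem_freyV P Q hQ⟩
    (fun τ hτ => Subtype.ext (hτ.2 Q hQ)) hρ
    (fun z hzA hzH => hσ z hzA fun τ hτI hτfix => hzH τ ⟨hτI, hτfix⟩)
  exact congrArg Subtype.val h

end Fermat.Agent.TR.ESide.Deep
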